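import Mathlib
import Fermat.Agent.S13.H891.Torsion

/-!
# E-side foundation, part 1: fibres of multiplication by `n` on the `x`-line

For a Weierstrass curve `E` over a field `K`, the landed `x`-ladder (`S13/H891`) gives polynomials
`N_n, D_n` with `x(nQ) = N_n(x(Q)) / D_n(x(Q))`.  Here we study the *fibre polynomial*
`fibPoly E n c = N_n - c D_n`:

* it is monic of degree `n^2` (`fibPoly_monic`, `natDegree_fibPoly`);
* for `Q ≠ 0`, `x(Q)` is a root iff `nQ ≠ 0` and `x(nQ) = c` (`fibPoly_root_iff`);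
* over an algebraically closed field of characteristic `0`, multiplication by `n ≥ 1` is
  surjective on `E(K)` (`exists_nsmul_eq`).
-/

open WeierstrassCurve WeierstrassCurve.Affine Polynomial
open Fermat.Agent.S51.Five (xc dD dN xc_add_self add_self_ne_zero_of_dD_ne_zero
  eq_or_eq_neg_of_xc_eq xc_neg xc_some exists_equation)
open Fermat.Agent.S13.H891

namespace Fermat.Agent.S59.H127

variable {K : Type*} [Field K]

/-- the fibre polynomial `N_n - c D_n`; its roots are the `x(Q)` with `x(nQ) = c` -/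
noncomputable def fibPoly (E : WeierstrassCurve.Affine K) (n : ℕ) (c : K) : K[X] :=
  polyN E.b₂ E.b₄ E.b₆ E.b₈ n - C c * polyD E.b₂ E.b₄ E.b₆ E.b₈ n

section degree

variable (E : WeierstrassCurve.Affine K)

lemma dc_fibPoly (n : ℕ) (hn : 1 ≤ n) (c : K) : DC (fibPoly E n c) (n ^ 2) 1 := by
  obtain ⟨hN, hD⟩ := dc_poly E.b₂ E.b₄ E.b₆ E.b₈ n hn
  have h1 : 1 ≤ n ^ 2 := Nat.one_le_pow _ _ hn
  have hD' : DC (C c * polyD E.b₂ E.b₄ E.b₆ E.b₈ n) (n ^ 2) 0 :=
    DC.of_lt ((natDegree_C_mul_le c _).trans hD.1) (by omega)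
  have := hN.sub hD'
  rw [sub_zero] at this
  exact this

lemma natDegree_fibPoly (n : ℕ) (hn : 1 ≤ n) (c : K) : (fibPoly E n c).natDegree = n ^ 2 := by
  obtain ⟨h1, h2⟩ := dc_fibPoly E n hn c
  exact natDegree_eq_of_le_of_coeff_ne_zero h1 (by rw [h2]; exact one_ne_zero)

lemma fibPoly_monic (n : ℕ) (hn : 1 ≤ n) (c : K) : (fibPoly E n c).Monic := by
  rw [Monic, leadingCoeff, natDegree_fibPoly E n hn c]
  exact (dc_fibPoly E n hn c).2

lemma fibPoly_ne_zero (n : ℕ) (hn : 1 ≤ n) (c : K) : fibPoly E n c ≠ 0 :=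
  (fibPoly_monic E n hn c).ne_zero

lemma eval_fibPoly (n : ℕ) (c x : K) :
    (fibPoly E n c).eval x
      = ladN E.b₂ E.b₄ E.b₆ E.b₈ x n - c * ladD E.b₂ E.b₄ E.b₆ E.b₈ x n := by
  simp only [fibPoly, eval_sub, eval_mul, eval_C, eval_polyN, eval_polyD]

end degree

variable [DecidableEq K] {E : WeierstrassCurve.Affine K}

/-- for `Q ≠ 0`: `x(Q)` is a root of `N_n - c D_n` iff `nQ ≠ 0` and `x(nQ) = c` -/
theorem fibPoly_root_iff {Q : E.Point} (hQ : Q ≠ 0) (n : ℕ) (c : K) :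
    (fibPoly E n c).eval (xc Q) = 0 ↔ n • Q ≠ 0 ∧ xc (n • Q) = c := by
  rw [eval_fibPoly]
  rcases rep_lad hQ n with ⟨h0, hd, hN⟩ | ⟨h0, hd, hx⟩
  · rw [hd, mul_zero, sub_zero]
    exact ⟨fun h => absurd h hN, fun h => absurd h0 h.1⟩
  · rw [← hx, ← sub_mul]
    constructor
    · intro h
      exact ⟨h0, sub_eq_zero.mp ((mul_eq_zero.mp h).resolve_right hd)⟩
    · rintro ⟨-, h⟩
      rw [h, sub_self, zero_mul]

/-- `N_n` and `D_n` have no common zero -/
theorem ladN_ne_zero_of_ladD_eq_zero {Q : E.Point} (hQ : Q ≠ 0) (n : ℕ)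
    (hD : ladD E.b₂ E.b₄ E.b₆ E.b₈ (xc Q) n = 0) :
    ladN E.b₂ E.b₄ E.b₆ E.b₈ (xc Q) n ≠ 0 := by
  rcases rep_lad hQ n with ⟨-, -, hN⟩ | ⟨-, hd, -⟩
  · exact hN
  · exact absurd hD hd

section algClosed

variable [IsAlgClosed K] [CharZero K] [E.IsElliptic]

/-- every `x ∈ K` is the `x`-coordinate of a point -/
lemma exists_point_xc (E : WeierstrassCurve.Affine K) [E.IsElliptic] (x : K) :
    ∃ Q : E.Point, Q ≠ 0 ∧ xc Q = x := by
  obtain ⟨y, hy⟩ := exists_equation E x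
  have hns : E.Nonsingular x y := Affine.equation_iff_nonsingular.mp hy
  exact ⟨Point.some x y hns, Point.some_ne_zero _, rfl⟩

/-- the points over the roots of the fibre polynomial: for a root `x` of `N_n - x(P) D_n` there
is `Q` with `x(Q) = x` and `nQ = P` -/
lemma exists_nsmul_eq_of_root {P : E.Point} (hP : P ≠ 0) (n : ℕ) {x : K}
    (hx : (fibPoly E n (xc P)).eval x = 0) : ∃ Q : E.Point, xc Q = x ∧ n • Q = P := by
  obtain ⟨Q, hQ, rfl⟩ := exists_point_xc E x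
  obtain ⟨h0, h1⟩ := (fibPoly_root_iff hQ n (xc P)).mp hx
  rcases eq_or_eq_neg_of_xc_eq h0 hP h1 with h | h
  · exact ⟨Q, rfl, h⟩
  · exact ⟨-Q, xc_neg Q, by rw [smul_neg, h, neg_neg]⟩

/-- multiplication by `n ≥ 1` is surjective on `E(K)`, `K` algebraically closed of
characteristic `0` -/
theorem exists_nsmul_eq (n : ℕ) (hn : 1 ≤ n) (P : E.Point) : ∃ Q : E.Point, n • Q = P := by
  by_cases hP : P = 0
  · exact ⟨0, by rw [hP, smul_zero]⟩
  have hdeg : (fibPoly E n (xc P)).degree ≠ 0 := by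
    rw [degree_eq_natDegree (fibPoly_ne_zero E n hn _), natDegree_fibPoly E n hn]
    have : 0 < n ^ 2 := by positivity
    exact_mod_cast this.ne'
  obtain ⟨x, hx⟩ := IsAlgClosed.exists_root _ hdeg
  obtain ⟨Q, -, hQ⟩ := exists_nsmul_eq_of_root hP n hx
  exact ⟨Q, hQ⟩

end algClosed

end Fermat.Agent.S59.H127
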