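import Mathlib
import Fermat.Agent.S59.H127.FibPoly

/-!
# E-side foundation, part 2: `#E[n] = n^2`

Over an algebraically closed field `K` of characteristic `0`, for an elliptic curve `E` (in affine
Weierstrass form) and every `n : ℕ`:

* `card_torsion_eq` : `Nat.card (Submodule.torsionBy ℤ E.Point n) = n ^ 2`;
* `finite_torsion` : `E[n]` is finite for `n ≥ 1`.

Proof: for a generic `c = x(P)` the fibre polynomial `N_n - c D_n` (monic of degree `n^2`) is
separable (the bad `c` are the values of `N_n / D_n` at the roots of the Wronskian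
`N_n' D_n - N_n D_n'`, which has leading coefficient `n^2 ≠ 0`), its roots are exactly the `x(Q)`
with `nQ = ± P`, and `{Q | nQ = P}` is a torsor under `E[n]` on which `x` is injective as soon as
`2P ≠ 0`.
-/

open WeierstrassCurve WeierstrassCurve.Affine Polynomial
open Fermat.Agent.S51.Five (xc dD dN xc_add_self add_self_ne_zero_of_dD_ne_zero
  eq_or_eq_neg_of_xc_eq xc_neg xc_some exists_equation)
open Fermat.Agent.S13.H891

namespace Fermat.Agent.S59.H127

variable {K : Type*} [Field K]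

section wronskian

lemma DC.derivative' {p : K[X]} {m : ℕ} {a : K} (hp : DC p (m + 1) a) :
    DC (derivative p) m (a * ((m : K) + 1)) := by
  refine ⟨(natDegree_derivative_le p).trans ?_, ?_⟩
  · have := hp.1; omega
  · rw [coeff_derivative, hp.2]

variable (E : WeierstrassCurve.Affine K)

/-- the Wronskian `N_n' D_n - N_n D_n'` -/
noncomputable def wronskPoly (n : ℕ) : K[X] :=
  derivative (polyN E.b₂ E.b₄ E.b₆ E.b₈ n) * polyD E.b₂ E.b₄ E.b₆ E.b₈ n
    - polyN E.b₂ E.b₄ E.b₆ E.b₈ n * derivative (polyD E.b₂ E.b₄ E.b₆ E.b₈ n)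

lemma dc_wronskPoly (n : ℕ) (hn : 2 ≤ n) :
    DC (wronskPoly E n) (2 * n ^ 2 - 2) ((n : K) ^ 2) := by
  obtain ⟨hN, hD⟩ := dc_poly E.b₂ E.b₄ E.b₆ E.b₈ n (by omega)
  have h4 : 4 ≤ n ^ 2 := by nlinarith
  obtain ⟨B, hB⟩ : ∃ B, n ^ 2 = B + 2 := ⟨n ^ 2 - 2, by omega⟩
  have hBK : (n : K) ^ 2 = (B : K) + 2 := by
    have := congrArg (Nat.cast : ℕ → K) hB
    push_cast at this
    exact this
  rw [hB] at hN
  have hD1 : DC (polyD E.b₂ E.b₄ E.b₆ E.b₈ n) (B + 1) ((n : K) ^ 2) :=
    hD.congr (by omega) rfl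
  have hN' := DC.derivative' hN
  have hD' := DC.derivative' hD1
  have h1 := hN'.mul hD1
  have h2 := hN.mul hD'
  have h2' := h2.congr (show B + 1 + 1 + B = B + 1 + (B + 1) by ring) rfl
  have h3 := h1.sub h2'
  unfold wronskPoly
  refine h3.congr (by omega) ?_
  push_cast
  rw [hBK]
  ring

lemma wronskPoly_ne_zero [CharZero K] (n : ℕ) (hn : 2 ≤ n) : wronskPoly E n ≠ 0 := by
  intro h
  have := (dc_wronskPoly E n hn).2
  rw [h, coeff_zero] at this
  have hn0 : (n : K) ≠ 0 := Nat.cast_ne_zero.mpr (by omega)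
  exact pow_ne_zero 2 hn0 this.symm

lemma polyD_two_ne_zero [CharZero K] : polyD E.b₂ E.b₄ E.b₆ E.b₈ 2 ≠ 0 := by
  intro h
  have := (dc_poly E.b₂ E.b₄ E.b₆ E.b₈ 2 (by norm_num)).2.2
  rw [h, coeff_zero] at this
  have h2 : ((2 : ℕ) : K) ≠ 0 := Nat.cast_ne_zero.mpr (by norm_num)
  exact pow_ne_zero 2 h2 this.symm

lemma eval_derivative_fibPoly (n : ℕ) (c x : K) :
    (derivative (fibPoly E n c)).eval x
      = (derivative (polyN E.b₂ E.b₄ E.b₆ E.b₈ n)).eval x
        - c * (derivative (polyD E.b₂ E.b₄ E.b₆ E.b₈ n)).eval x := by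
  simp only [fibPoly, derivative_sub, derivative_mul, derivative_C, zero_mul, zero_add, eval_sub,
    eval_mul, eval_C]

end wronskian

variable [DecidableEq K] {E : WeierstrassCurve.Affine K}

/-- `2P ≠ 0` as soon as `x(P)` is not a root of `D_2` -/
lemma add_self_ne_zero_of_polyD_two {P : E.Point} (hP : P ≠ 0)
    (h : (polyD E.b₂ E.b₄ E.b₆ E.b₈ 2).eval (xc P) ≠ 0) : P + P ≠ 0 := by
  rw [eval_polyD] at h
  have := rep_lad hP 2
  rw [two_nsmul] at this
  exact fun h0 => h (this.eq_zero_iff.mp h0)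

lemma mem_torsionBy_natCast_iff {n : ℕ} {T : E.Point} :
    T ∈ Submodule.torsionBy ℤ E.Point ((n : ℕ) : ℤ) ↔ n • T = 0 := by
  rw [Submodule.mem_torsionBy_iff, natCast_zsmul]

section algClosed

variable [IsAlgClosed K] [CharZero K] [E.IsElliptic]

/-- the set of bad values `c` -/
noncomputable def badValues (E : WeierstrassCurve.Affine K) (n : ℕ) : Finset K :=
  (polyD E.b₂ E.b₄ E.b₆ E.b₈ 2).roots.toFinset ∪
    (wronskPoly E n).roots.toFinset.image
      (fun x => (polyN E.b₂ E.b₄ E.b₆ E.b₈ n).eval x / (polyD E.b₂ E.b₄ E.b₆ E.b₈ n).eval x)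

/-- for `c` outside the bad set, the fibre polynomial has simple roots -/
theorem nodup_roots_fibPoly (n : ℕ) (hn : 2 ≤ n) {c : K} (hc : c ∉ badValues E n) :
    (fibPoly E n c).roots.Nodup := by
  rw [Multiset.nodup_iff_count_le_one]
  intro x
  rw [count_roots]
  by_contra hlt
  rw [not_le] at hlt
  obtain ⟨h0, h1⟩ := (one_lt_rootMultiplicity_iff_isRoot (fibPoly_ne_zero E n (by omega) c)).mp hlt
  rw [IsRoot.def] at h0 h1
  have h0' := h0
  rw [eval_fibPoly] at h0
  rw [eval_derivative_fibPoly] at h1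
  obtain ⟨Q, hQ, rfl⟩ := exists_point_xc E x
  have hD : ladD E.b₂ E.b₄ E.b₆ E.b₈ (xc Q) n ≠ 0 := by
    intro hD
    apply ladN_ne_zero_of_ladD_eq_zero hQ n hD
    rw [hD, mul_zero, sub_zero] at h0
    exact h0
  apply hc
  unfold badValues
  rw [Finset.mem_union]
  right
  rw [Finset.mem_image]
  refine ⟨xc Q, ?_, ?_⟩
  · rw [Multiset.mem_toFinset, mem_roots (wronskPoly_ne_zero E n hn), IsRoot.def]
    unfold wronskPoly
    rw [eval_sub, eval_mul, eval_mul, eval_polyN, eval_polyD]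
    linear_combination (ladD E.b₂ E.b₄ E.b₆ E.b₈ (xc Q) n) * h1
      - (derivative (polyD E.b₂ E.b₄ E.b₆ E.b₈ n)).eval (xc Q) * h0
  · rw [eval_polyN, eval_polyD, div_eq_iff hD]
    linear_combination h0

/-- for `c` outside the bad set, the fibre polynomial has exactly `n^2` roots -/
theorem card_roots_fibPoly (n : ℕ) (hn : 2 ≤ n) {c : K} (hc : c ∉ badValues E n) :
    (fibPoly E n c).roots.toFinset.card = n ^ 2 := by
  rw [Multiset.toFinset_card_of_nodup (nodup_roots_fibPoly n hn hc),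
    IsAlgClosed.card_roots_eq_natDegree, natDegree_fibPoly E n (by omega)]

/-- a good base point: `P ≠ 0`, `2P ≠ 0`, `x(P)` outside the bad set -/
lemma exists_good_point (E : WeierstrassCurve.Affine K) [E.IsElliptic] (n : ℕ) :
    ∃ P : E.Point, P ≠ 0 ∧ P + P ≠ 0 ∧ xc P ∉ badValues E n := by
  obtain ⟨c, hc⟩ := Infinite.exists_notMem_finset (badValues E n)
  obtain ⟨P, hP, rfl⟩ := exists_point_xc E c
  refine ⟨P, hP, add_self_ne_zero_of_polyD_two hP ?_, hc⟩
  intro h
  apply hc
  unfold badValues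
  rw [Finset.mem_union]
  left
  rw [Multiset.mem_toFinset, mem_roots (polyD_two_ne_zero E)]
  exact h

omit [IsAlgClosed K] [CharZero K] [E.IsElliptic] in
/-- the `x`-coordinate map from the `n`-torsion, translated by `Q₁`, to the roots of the fibre
polynomial -/
lemma xc_add_mem_roots {P Q₁ : E.Point} (hP : P ≠ 0) {n : ℕ} (hn : 1 ≤ n) (hQ₁ : n • Q₁ = P)
    {T : E.Point} (hT : n • T = 0) :
    xc (Q₁ + T) ∈ (fibPoly E n (xc P)).roots.toFinset := by
  have hnQ : n • (Q₁ + T) = P := by rw [smul_add, hQ₁, hT, add_zero]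
  have hQ0 : Q₁ + T ≠ 0 := by
    intro h
    rw [h, smul_zero] at hnQ
    exact hP hnQ.symm
  rw [Multiset.mem_toFinset, mem_roots (fibPoly_ne_zero E n hn _), IsRoot.def,
    fibPoly_root_iff hQ0, hnQ]
  exact ⟨hP, rfl⟩

omit [IsAlgClosed K] [CharZero K] [E.IsElliptic] in
lemma xc_add_injective {P Q₁ : E.Point} (hP2 : P + P ≠ 0) {n : ℕ} (hQ₁ : n • Q₁ = P)
    {T T' : E.Point} (hT : n • T = 0) (hT' : n • T' = 0)
    (hQ0 : Q₁ + T ≠ 0) (hQ0' : Q₁ + T' ≠ 0) (h : xc (Q₁ + T) = xc (Q₁ + T')) : T = T' := by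
  rcases eq_or_eq_neg_of_xc_eq hQ0 hQ0' h with h' | h'
  · exact add_left_cancel h'
  · exfalso
    apply hP2
    have h1 : n • (Q₁ + T) = P := by rw [smul_add, hQ₁, hT, add_zero]
    have h2 : n • (Q₁ + T') = P := by rw [smul_add, hQ₁, hT', add_zero]
    rw [h', smul_neg, h2] at h1
    calc P + P = P + -P := by rw [h1]
      _ = 0 := add_neg_cancel P

/-- `E[n]` is finite, of cardinality at most the number of roots of a fibre polynomial -/
theorem torsion_le_roots {P : E.Point} (hP : P ≠ 0) (hP2 : P + P ≠ 0) (n : ℕ) (hn : 1 ≤ n) :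
    Finite (Submodule.torsionBy ℤ E.Point ((n : ℕ) : ℤ)) ∧
    Nat.card (Submodule.torsionBy ℤ E.Point ((n : ℕ) : ℤ))
      ≤ (fibPoly E n (xc P)).roots.toFinset.card := by
  obtain ⟨Q₁, hQ₁⟩ := exists_nsmul_eq n hn P
  have hne : ∀ T : E.Point, n • T = 0 → Q₁ + T ≠ 0 := by
    intro T hT h
    have hnQ : n • (Q₁ + T) = P := by rw [smul_add, hQ₁, hT, add_zero]
    rw [h, smul_zero] at hnQ
    exact hP hnQ.symm
  let f : Submodule.torsionBy ℤ E.Point ((n : ℕ) : ℤ) → (fibPoly E n (xc P)).roots.toFinset :=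
    fun T => ⟨xc (Q₁ + T.1), xc_add_mem_roots hP hn hQ₁ (mem_torsionBy_natCast_iff.mp T.2)⟩
  have hf : Function.Injective f := by
    intro T T' h
    have h' : xc (Q₁ + T.1) = xc (Q₁ + T'.1) := congrArg Subtype.val h
    exact Subtype.ext (xc_add_injective hP2 hQ₁ (mem_torsionBy_natCast_iff.mp T.2)
      (mem_torsionBy_natCast_iff.mp T'.2) (hne _ (mem_torsionBy_natCast_iff.mp T.2))
      (hne _ (mem_torsionBy_natCast_iff.mp T'.2)) h')
  refine ⟨Finite.of_injective f hf, ?_⟩
  calc Nat.card (Submodule.torsionBy ℤ E.Point ((n : ℕ) : ℤ))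
      ≤ Nat.card (fibPoly E n (xc P)).roots.toFinset := Nat.card_le_card_of_injective f hf
    _ = (fibPoly E n (xc P)).roots.toFinset.card := by
        rw [Nat.card_eq_fintype_card, Fintype.card_coe]

/-- the number of roots of a fibre polynomial is at most `#E[n]` -/
theorem roots_le_torsion {P : E.Point} (hP : P ≠ 0) (n : ℕ) (hn : 1 ≤ n)
    [Finite (Submodule.torsionBy ℤ E.Point ((n : ℕ) : ℤ))] :
    (fibPoly E n (xc P)).roots.toFinset.card
      ≤ Nat.card (Submodule.torsionBy ℤ E.Point ((n : ℕ) : ℤ)) := by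
  obtain ⟨Q₁, hQ₁⟩ := exists_nsmul_eq n hn P
  have hex : ∀ x : (fibPoly E n (xc P)).roots.toFinset,
      ∃ Q : E.Point, xc Q = x.1 ∧ n • Q = P := by
    intro x
    have hx := x.2
    rw [Multiset.mem_toFinset, mem_roots (fibPoly_ne_zero E n hn _), IsRoot.def] at hx
    exact exists_nsmul_eq_of_root hP n hx
  choose q hq1 hq2 using hex
  let g : (fibPoly E n (xc P)).roots.toFinset → Submodule.torsionBy ℤ E.Point ((n : ℕ) : ℤ) :=
    fun x => ⟨q x - Q₁, mem_torsionBy_natCast_iff.mpr (by rw [smul_sub, hq2, hQ₁, sub_self])⟩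
  have hg : Function.Injective g := by
    intro x y h
    have h' : q x - Q₁ = q y - Q₁ := congrArg Subtype.val h
    have h'' : q x = q y := sub_left_inj.mp h'
    apply Subtype.ext
    rw [← hq1 x, ← hq1 y, h'']
  calc (fibPoly E n (xc P)).roots.toFinset.card
      = Nat.card (fibPoly E n (xc P)).roots.toFinset := by
        rw [Nat.card_eq_fintype_card, Fintype.card_coe]
    _ ≤ Nat.card (Submodule.torsionBy ℤ E.Point ((n : ℕ) : ℤ)) :=
        Nat.card_le_card_of_injective g hg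

variable (E)

/-- `E[n]` is finite for `n ≥ 1` -/
theorem finite_torsion (n : ℕ) (hn : 1 ≤ n) :
    Finite (Submodule.torsionBy ℤ E.Point ((n : ℕ) : ℤ)) := by
  obtain ⟨P, hP, hP2, -⟩ := exists_good_point E n
  exact (torsion_le_roots hP hP2 n hn).1

/-- `E(K)` is infinite -/
theorem infinite_point : Infinite E.Point := by
  have hsurj : Function.Surjective (xc : E.Point → K) := fun x => by
    obtain ⟨Q, -, hQ⟩ := exists_point_xc E x
    exact ⟨Q, hQ⟩
  exact Infinite.of_surjective _ hsurj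

/-- **`#E[n] = n^2`** over an algebraically closed field of characteristic `0` -/
theorem card_torsion_eq (n : ℕ) :
    Nat.card (Submodule.torsionBy ℤ E.Point ((n : ℕ) : ℤ)) = n ^ 2 := by
  rcases Nat.lt_or_ge n 2 with hlt | hn
  · interval_cases n
    · -- `n = 0`: the whole (infinite) group
      have hI := infinite_point E
      have hinf : Infinite (Submodule.torsionBy ℤ E.Point ((0 : ℕ) : ℤ)) :=
        Infinite.of_injective
          (fun P : E.Point => (⟨P, mem_torsionBy_natCast_iff.mpr (zero_nsmul P)⟩ :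
            Submodule.torsionBy ℤ E.Point ((0 : ℕ) : ℤ)))
          (fun P Q h => congrArg Subtype.val h)
      rw [Nat.card_eq_zero_of_infinite]
      rfl
    · -- `n = 1`: the trivial group
      have hbot : Submodule.torsionBy ℤ E.Point ((1 : ℕ) : ℤ) = ⊥ := by
        rw [Nat.cast_one]; exact Submodule.torsionBy_one
      have : Subsingleton (Submodule.torsionBy ℤ E.Point ((1 : ℕ) : ℤ)) := by
        rw [hbot]; infer_instance
      rw [Nat.card_unique]
      rfl
  · obtain ⟨P, hP, hP2, hc⟩ := exists_good_point E n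
    obtain ⟨hfin, hle⟩ := torsion_le_roots hP hP2 n (by omega)
    have hge := roots_le_torsion hP n (by omega)
    rw [card_roots_fibPoly n hn hc] at hle hge
    exact le_antisymm hle hge

end algClosed

end Fermat.Agent.S59.H127
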