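import Mathlib

/-!
# E-side foundation, part 3: compatible bases of the `p`-power torsion

Abstract algebra (Mathlib only).  Let `A` be an abelian group and `p` a prime such that

* multiplication by `p` is surjective on `A`, and
* `#A[p] = p ^ h`.

Then there is a *compatible system of bases* `B k : Fin h → A[p^k]` (`CompatBasis A p h`):
`p • B (k+1) i = B k i`, and `(B k i)_i` is a basis of `A[p^k]` over `ℤ / p^k`
(`nonempty_compatBasis`).  In particular `A[p^k] ≃ (ℤ/p^k)^h` for all `k`.
-/

namespace Fermat.Agent.S59.H127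

/-- a compatible system of bases of the `p^k`-torsion of an abelian group `A` -/
structure CompatBasis (A : Type*) [AddCommGroup A] (p h : ℕ) where
  /-- the basis of the `p^k`-torsion -/
  B : ℕ → Fin h → A
  zero : ∀ i, B 0 i = 0
  succ : ∀ k i, p • B (k + 1) i = B k i
  indep : ∀ k (c : Fin h → ℤ), ∑ i, c i • B k i = 0 → ∀ i, ((p : ℤ) ^ k) ∣ c i
  span : ∀ k (x : A), p ^ k • x = 0 → ∃ c : Fin h → ℤ, x = ∑ i, c i • B k i

section basis

variable {A : Type*} [AddCommGroup A] (p : ℕ) [hp : Fact p.Prime] (h : ℕ)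

/-- a basis of a finite `ZMod p`-module of cardinality `p ^ h`, in elementary terms -/
lemma exists_basis_of_zmod_module {M : Type*} [AddCommGroup M] [Module (ZMod p) M]
    (hcard : Nat.card M = p ^ h) :
    ∃ b : Fin h → M,
      (∀ c : Fin h → ℤ, ∑ i, c i • b i = 0 → ∀ i, (p : ℤ) ∣ c i) ∧
      (∀ x : M, ∃ c : Fin h → ℤ, x = ∑ i, c i • b i) := by
  classical
  have hfin : Finite M :=
    Nat.finite_of_card_ne_zero (by rw [hcard]; exact pow_ne_zero _ hp.out.ne_zero)
  have hMf : Module.Finite (ZMod p) M := Module.Finite.of_finite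
  have hrank : Module.finrank (ZMod p) M = h := by
    have := Module.natCard_eq_pow_finrank (K := ZMod p) (V := M)
    rw [hcard, Nat.card_zmod] at this
    exact (Nat.pow_right_injective hp.out.two_le this).symm
  let b := Module.finBasisOfFinrankEq (ZMod p) M hrank
  refine ⟨fun i => b i, ?_, ?_⟩
  · intro c hc i
    have h1 : ∑ i, ((c i : ℤ) : ZMod p) • b i = 0 := by
      rw [← hc]
      refine Finset.sum_congr rfl fun j _ => ?_
      rw [Int.cast_smul_eq_zsmul]
    have h2 := Fintype.linearIndependent_iff.mp b.linearIndependent _ h1 i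
    exact (ZMod.intCast_zmod_eq_zero_iff_dvd _ p).mp h2
  · intro x
    refine ⟨fun i => ((b.repr x i).val : ℤ), ?_⟩
    have h1 := b.sum_repr x
    conv_lhs => rw [← h1]
    refine Finset.sum_congr rfl fun j _ => ?_
    rw [← Int.cast_smul_eq_zsmul (ZMod p)]
    congr 1
    rw [Int.cast_natCast, ZMod.natCast_zmod_val]

/-- a basis of the `p`-torsion, in elementary terms -/
lemma exists_basis_torsion_p
    (hcard : Nat.card (Submodule.torsionBy ℤ A ((p : ℕ) : ℤ)) = p ^ h) :
    ∃ b : Fin h → A, (∀ i, p • b i = 0) ∧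
      (∀ c : Fin h → ℤ, ∑ i, c i • b i = 0 → ∀ i, (p : ℤ) ∣ c i) ∧
      (∀ x : A, p • x = 0 → ∃ c : Fin h → ℤ, x = ∑ i, c i • b i) := by
  classical
  have hmem : ∀ x : A, x ∈ Submodule.torsionBy ℤ A ((p : ℕ) : ℤ) ↔ p • x = 0 := by
    intro x
    rw [Submodule.mem_torsionBy_iff, natCast_zsmul]
  have hkill : ∀ x : Submodule.torsionBy ℤ A ((p : ℕ) : ℤ), p • x = 0 := by
    intro x
    apply Subtype.ext
    rw [Submodule.coe_smul_of_tower, Submodule.coe_zero]
    exact (hmem _).mp x.2
  obtain ⟨b, hbi, hbs⟩ := @exists_basis_of_zmod_module p hp h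
    (Submodule.torsionBy ℤ A ((p : ℕ) : ℤ)) _ (AddCommGroup.zmodModule hkill) hcard
  refine ⟨fun i => ((b i : Submodule.torsionBy ℤ A ((p : ℕ) : ℤ)) : A), ?_, ?_, ?_⟩
  · intro i
    exact (hmem _).mp (b i).2
  · intro c hc i
    refine hbi c ?_ i
    apply Subtype.ext
    rw [Submodule.coe_sum, Submodule.coe_zero, ← hc]
    refine Finset.sum_congr rfl fun j _ => ?_
    rw [Submodule.coe_smul_of_tower]
  · intro x hx
    obtain ⟨c, hc⟩ := hbs ⟨x, (hmem x).mpr hx⟩
    refine ⟨c, ?_⟩
    have h2 := congrArg (Subtype.val) hc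
    rw [Submodule.coe_sum] at h2
    rw [show x = ((⟨x, (hmem x).mpr hx⟩ : Submodule.torsionBy ℤ A ((p : ℕ) : ℤ)) : A) from rfl, h2]
    refine Finset.sum_congr rfl fun j _ => ?_
    rw [Submodule.coe_smul_of_tower]

end basis

section tower

variable {A : Type*} [AddCommGroup A] (p : ℕ) (h : ℕ)

/-- the tower of `p`-division points above a given family -/
noncomputable def divTower (hdiv : ∀ x : A, ∃ y : A, p • y = x) (b : Fin h → A) :
    ℕ → Fin h → A
  | 0 => b
  | (k + 1) => fun i => Classical.choose (hdiv (divTower hdiv b k i))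

lemma divTower_succ (hdiv : ∀ x : A, ∃ y : A, p • y = x) (b : Fin h → A) (k : ℕ) (i : Fin h) :
    p • divTower p h hdiv b (k + 1) i = divTower p h hdiv b k i :=
  Classical.choose_spec (hdiv (divTower p h hdiv b k i))

end tower

section compat

variable {A : Type*} [AddCommGroup A] {p h : ℕ}

lemma pow_smul_of_succ {B : ℕ → Fin h → A} (hsucc : ∀ k i, p • B (k + 1) i = B k i)
    (j k : ℕ) (i : Fin h) : p ^ j • B (k + j) i = B k i := by
  induction j with
  | zero => simp
  | succ j ih =>
    rw [pow_succ, mul_smul, ← add_assoc, hsucc, ih]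

variable (p h) [hp : Fact p.Prime]

/-- **existence of a compatible system of bases** for a `p`-divisible group with `#A[p] = p^h` -/
theorem nonempty_compatBasis (hdiv : ∀ x : A, ∃ y : A, p • y = x)
    (hcard : Nat.card (Submodule.torsionBy ℤ A ((p : ℕ) : ℤ)) = p ^ h) :
    Nonempty (CompatBasis A p h) := by
  classical
  obtain ⟨b, hb0, hbi, hbs⟩ := exists_basis_torsion_p p h hcard
  -- the tower
  let C := divTower p h hdiv b
  let B : ℕ → Fin h → A := fun k => match k with
    | 0 => fun _ => 0
    | (k + 1) => C k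
  have hB0 : ∀ i, B 0 i = 0 := fun i => rfl
  have hB1 : ∀ i, B 1 i = b i := fun i => rfl
  have hsucc : ∀ k i, p • B (k + 1) i = B k i := by
    intro k i
    cases k with
    | zero => exact hb0 i
    | succ k => exact divTower_succ p h hdiv b k i
  have hpow : ∀ k i, p ^ k • B (k + 1) i = b i := by
    intro k i
    have := pow_smul_of_succ hsucc k 1 i
    rw [add_comm 1 k] at this
    rw [this, hB1]
  have hkill : ∀ k i, p ^ k • B k i = 0 := by
    intro k i
    have := pow_smul_of_succ hsucc k 0 i
    rw [zero_add] at this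
    rw [this]
  refine ⟨⟨B, hB0, hsucc, ?_, ?_⟩⟩
  · -- independence
    intro k
    induction k with
    | zero => intro c _ i; simp
    | succ k ih =>
      intro c hc i
      -- multiply by `p^k`
      have h1 : ∑ i, c i • b i = 0 := by
        have := congrArg (fun x => p ^ k • x) hc
        simp only [Finset.smul_sum, smul_zero] at this
        rw [← this]
        refine Finset.sum_congr rfl fun j _ => ?_
        rw [smul_comm, hpow]
      have h2 := hbi c h1
      choose c' hc' using h2
      have h3 : ∑ i, c' i • B k i = 0 := by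
        rw [← hc]
        refine Finset.sum_congr rfl fun j _ => ?_
        rw [hc' j, mul_comm, mul_smul, natCast_zsmul, hsucc]
      have h4 := ih c' h3 i
      rw [hc' i, pow_succ']
      exact mul_dvd_mul_left _ h4
  · -- spanning
    intro k
    induction k with
    | zero =>
      intro x hx
      refine ⟨fun _ => 0, ?_⟩
      rw [pow_zero, one_smul] at hx
      simp [hx]
    | succ k ih =>
      intro x hx
      have hx' : p ^ k • (p • x) = 0 := by
        rw [← mul_smul, ← pow_succ]; exact hx
      obtain ⟨c, hc⟩ := ih (p • x) hx'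
      have hy : p • (x - ∑ i, c i • B (k + 1) i) = 0 := by
        rw [smul_sub, hc, Finset.smul_sum, sub_eq_zero]
        refine Finset.sum_congr rfl fun j _ => ?_
        rw [smul_comm, hsucc]
      obtain ⟨d, hd⟩ := hbs _ hy
      refine ⟨fun i => c i + d i * (p : ℤ) ^ k, ?_⟩
      have : x = ∑ i, c i • B (k + 1) i + ∑ i, d i • b i := by
        rw [← hd]; abel
      rw [this, ← Finset.sum_add_distrib]
      refine Finset.sum_congr rfl fun j _ => ?_
      rw [add_smul, mul_smul, ← Nat.cast_pow, natCast_zsmul, hpow]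

end compat

end Fermat.Agent.S59.H127
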