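import Mathlib
import Fermat.Agent.S59.H127.PDiv

/-!
# E-side foundation, part 4: the `p`-adic Tate module of a `p`-divisible group, in coordinates

Abstract algebra (Mathlib only).  Let `cb : CompatBasis A p h` be a compatible system of bases of
the `p^k`-torsion of an abelian group `A`.  We realise the Tate module `T_p A = lim A[p^k]` as
`V = Fin h → ℤ_[p]` via the comparison map

  `cb.Φ : (Fin h → ℤ_[p]) → ℕ → A`,   `Φ a k = ∑ i, (a i mod p^k) • B k i`

which is an additive bijection onto the compatible sequences (`Φ_injective`, `Φ_surjective`), and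
construct the **ring homomorphism**

  `cb.tateEnd : AddMonoid.End A →+* Module.End ℤ_[p] (Fin h → ℤ_[p])`

characterised by `Φ (tateEnd f a) k = f (Φ a k)` (`Φ_tateEnd`).  If `f` kills `A[p^n]` then
`tateEnd f` has image in `p^n V` (`tateEnd_mem_smul_top`).  For a group `G` acting on `A` by
additive automorphisms this gives `cb.tateRep : G →* Module.End ℤ_[p] (Fin h → ℤ_[p])`.
-/

open PadicInt

namespace Fermat.Agent.S59.H127

variable {A : Type*} [AddCommGroup A] {p h : ℕ} [hp : Fact p.Prime]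

section padic

/-- an integer `n` represents `x mod p^k` iff `x - n ∈ (p^k)` -/
lemma intCast_eq_toZModPow_iff (k : ℕ) (n : ℤ) (x : ℤ_[p]) :
    ((n : ℤ) : ZMod (p ^ k)) = toZModPow k x ↔ x - (n : ℤ_[p]) ∈ Ideal.span {(p : ℤ_[p]) ^ k} := by
  rw [← ker_toZModPow, RingHom.mem_ker, map_sub, map_intCast, sub_eq_zero, eq_comm]

lemma appr_cast_eq_toZModPow (k : ℕ) (x : ℤ_[p]) :
    (((x.appr k : ℕ) : ℤ) : ZMod (p ^ k)) = toZModPow k x := by
  rw [intCast_eq_toZModPow_iff, Int.cast_natCast]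
  exact appr_spec k x

lemma intCast_eq_toZModPow_of_le {k m : ℕ} (hkm : k ≤ m) {n : ℤ} {x : ℤ_[p]}
    (hn : ((n : ℤ) : ZMod (p ^ m)) = toZModPow m x) :
    ((n : ℤ) : ZMod (p ^ k)) = toZModPow k x := by
  rw [intCast_eq_toZModPow_iff] at hn ⊢
  have hle : Ideal.span {(p : ℤ_[p]) ^ m} ≤ Ideal.span {(p : ℤ_[p]) ^ k} := by
    rw [Ideal.span_singleton_le_span_singleton]
    exact pow_dvd_pow _ hkm
  exact hle hn

end padic

namespace CompatBasis

variable (cb : CompatBasis A p h)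

omit hp in
lemma pow_smul (j k : ℕ) (i : Fin h) : p ^ j • cb.B (k + j) i = cb.B k i :=
  pow_smul_of_succ cb.succ j k i

omit hp in
lemma pow_smul_self (k : ℕ) (i : Fin h) : p ^ k • cb.B k i = 0 := by
  have := cb.pow_smul k 0 i
  rw [zero_add] at this
  rw [this, cb.zero]

omit hp in
/-- integer combinations of `B k` only depend on the coefficients modulo `p^k` -/
lemma sum_eq_iff (k : ℕ) (c c' : Fin h → ℤ) :
    ∑ i, c i • cb.B k i = ∑ i, c' i • cb.B k i ↔ ∀ i, ((p : ℤ) ^ k) ∣ c i - c' i := by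
  constructor
  · intro hcc
    apply cb.indep k
    rw [← sub_eq_zero, ← Finset.sum_sub_distrib] at hcc
    rw [← hcc]
    exact Finset.sum_congr rfl fun j _ => sub_smul _ _ _
  · intro hcc
    rw [← sub_eq_zero, ← Finset.sum_sub_distrib]
    apply Finset.sum_eq_zero
    intro j _
    obtain ⟨d, hd⟩ := hcc j
    rw [← sub_smul, hd, mul_comm, mul_smul, ← Nat.cast_pow, natCast_zsmul, cb.pow_smul_self,
      smul_zero]

omit hp in
lemma sum_mem_torsion (k : ℕ) (c : Fin h → ℤ) : p ^ k • ∑ i, c i • cb.B k i = 0 := by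
  rw [Finset.smul_sum]
  apply Finset.sum_eq_zero
  intro j _
  rw [smul_comm, cb.pow_smul_self, smul_zero]

/-- the comparison map from `ℤ_p^h` to sequences in `A` -/
noncomputable def Φ (a : Fin h → ℤ_[p]) (k : ℕ) : A :=
  ∑ i, (((a i).appr k : ℕ) : ℤ) • cb.B k i

/-- `Φ a k` can be computed with any integer representatives of `a i mod p^k` -/
lemma Φ_eq_of_cast (a : Fin h → ℤ_[p]) (k : ℕ) (c : Fin h → ℤ)
    (hc : ∀ i, ((c i : ℤ) : ZMod (p ^ k)) = toZModPow k (a i)) :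
    cb.Φ a k = ∑ i, c i • cb.B k i := by
  unfold Φ
  rw [cb.sum_eq_iff]
  intro i
  have h1 := appr_cast_eq_toZModPow k (a i)
  rw [← hc i, ZMod.intCast_eq_intCast_iff_dvd_sub] at h1
  rw [← Nat.cast_pow]
  have := (dvd_neg.mpr h1)
  rwa [neg_sub] at this

lemma Φ_torsion (a : Fin h → ℤ_[p]) (k : ℕ) : p ^ k • cb.Φ a k = 0 :=
  cb.sum_mem_torsion k _

lemma Φ_zero_right (a : Fin h → ℤ_[p]) : cb.Φ a 0 = 0 := by
  have := cb.Φ_torsion a 0
  rwa [pow_zero, one_smul] at this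

lemma Φ_succ (a : Fin h → ℤ_[p]) (k : ℕ) : p • cb.Φ a (k + 1) = cb.Φ a k := by
  have h1 : cb.Φ a k = ∑ i, (((a i).appr (k + 1) : ℕ) : ℤ) • cb.B k i :=
    cb.Φ_eq_of_cast a k _ fun i =>
      intCast_eq_toZModPow_of_le (Nat.le_succ k) (appr_cast_eq_toZModPow (k + 1) (a i))
  rw [h1, Φ, Finset.smul_sum]
  refine Finset.sum_congr rfl fun j _ => ?_
  rw [smul_comm, cb.succ]

lemma Φ_add (a b : Fin h → ℤ_[p]) (k : ℕ) : cb.Φ (a + b) k = cb.Φ a k + cb.Φ b k := by
  rw [cb.Φ_eq_of_cast (a + b) k (fun i => (((a i).appr k : ℕ) : ℤ) + (((b i).appr k : ℕ) : ℤ))]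
  · rw [Φ, Φ, ← Finset.sum_add_distrib]
    exact Finset.sum_congr rfl fun j _ => add_smul _ _ _
  · intro i
    rw [Int.cast_add, appr_cast_eq_toZModPow, appr_cast_eq_toZModPow, Pi.add_apply, map_add]

lemma Φ_smul (c : ℤ_[p]) (a : Fin h → ℤ_[p]) (k : ℕ) :
    cb.Φ (c • a) k = (c.appr k) • cb.Φ a k := by
  rw [cb.Φ_eq_of_cast (c • a) k (fun i => ((c.appr k : ℕ) : ℤ) * (((a i).appr k : ℕ) : ℤ))]
  · rw [Φ, Finset.smul_sum]
    refine Finset.sum_congr rfl fun j _ => ?_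
    rw [mul_smul, natCast_zsmul]
  · intro i
    rw [Int.cast_mul, appr_cast_eq_toZModPow, appr_cast_eq_toZModPow, Pi.smul_apply, smul_eq_mul,
      map_mul]

lemma Φ_zero_left (k : ℕ) : cb.Φ (0 : Fin h → ℤ_[p]) k = 0 := by
  have := cb.Φ_add 0 0 k
  rw [add_zero] at this
  exact left_eq_add.mp this

/-- `Φ a k = 0` iff all coordinates of `a` are divisible by `p^k` -/
lemma Φ_eq_zero_iff (a : Fin h → ℤ_[p]) (k : ℕ) :
    cb.Φ a k = 0 ↔ ∀ i, a i ∈ Ideal.span {(p : ℤ_[p]) ^ k} := by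
  have h0 : (0 : A) = ∑ i, (fun _ => (0 : ℤ)) i • cb.B k i := by simp
  rw [Φ, h0, cb.sum_eq_iff]
  refine forall_congr' fun i => ?_
  rw [sub_zero, ← ker_toZModPow, RingHom.mem_ker, ← appr_cast_eq_toZModPow, ← Nat.cast_pow,
    ZMod.intCast_zmod_eq_zero_iff_dvd]

lemma Φ_eq_iff (a b : Fin h → ℤ_[p]) (k : ℕ) :
    cb.Φ a k = cb.Φ b k ↔ ∀ i, toZModPow k (a i) = toZModPow k (b i) := by
  rw [Φ, Φ, cb.sum_eq_iff]
  refine forall_congr' fun i => ?_
  rw [← appr_cast_eq_toZModPow, ← appr_cast_eq_toZModPow, ← Nat.cast_pow,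
    ZMod.intCast_eq_intCast_iff_dvd_sub, ← dvd_neg, neg_sub]

theorem Φ_injective {a b : Fin h → ℤ_[p]} (hab : ∀ k, cb.Φ a k = cb.Φ b k) : a = b := by
  funext i
  apply ext_of_toZModPow.mp
  intro k
  exact (cb.Φ_eq_iff a b k).mp (hab k) i

/-- every element of `A[p^k]` is of the form `Φ a k` -/
theorem Φ_surjective_level (k : ℕ) (x : A) (hx : p ^ k • x = 0) :
    ∃ a : Fin h → ℤ_[p], cb.Φ a k = x := by
  obtain ⟨c, hc⟩ := cb.span k x hx
  refine ⟨fun i => (c i : ℤ_[p]), ?_⟩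
  rw [hc]
  apply cb.Φ_eq_of_cast
  intro i
  rw [map_intCast]

/-- `Φ` of a standard basis vector is the corresponding basis element -/
lemma Φ_single (j : Fin h) (k : ℕ) : cb.Φ (Pi.single j (1 : ℤ_[p])) k = cb.B k j := by
  classical
  rw [cb.Φ_eq_of_cast (Pi.single j (1 : ℤ_[p])) k (Pi.single j (1 : ℤ))]
  · rw [Finset.sum_eq_single j]
    · rw [Pi.single_eq_same, one_smul]
    · intro i _ hij
      rw [Pi.single_eq_of_ne hij, zero_smul]
    · intro hj
      exact absurd (Finset.mem_univ j) hj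
  · intro i
    by_cases hij : i = j
    · subst hij
      rw [Pi.single_eq_same, Pi.single_eq_same, Int.cast_one, map_one]
    · rw [Pi.single_eq_of_ne hij, Pi.single_eq_of_ne hij, Int.cast_zero, map_zero]

/-- every compatible sequence is of the form `Φ a` -/
theorem Φ_surjective (x : ℕ → A) (hx0 : x 0 = 0) (hx : ∀ k, p • x (k + 1) = x k) :
    ∃ a : Fin h → ℤ_[p], ∀ k, cb.Φ a k = x k := by
  have hxk : ∀ k, p ^ k • x k = 0 := by
    intro k
    induction k with
    | zero => rw [pow_zero, one_smul, hx0]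
    | succ k ih => rw [pow_succ, mul_smul, hx, ih]
  choose c hc using fun k => cb.span k (x k) (hxk k)
  have hcompat : ∀ i k, ((p : ℤ) ^ k) ∣ c (k + 1) i - c k i := by
    intro i k
    revert i
    rw [← cb.sum_eq_iff, ← hc k, ← hx k, hc (k + 1), Finset.smul_sum]
    refine Finset.sum_congr rfl fun j _ => ?_
    rw [smul_comm, cb.succ]
  refine ⟨fun i => PadicInt.ofIntSeq _
    (isCauSeq_padicNorm_of_pow_dvd_sub (fun k => c k i) p (hcompat i)), fun k => ?_⟩
  rw [hc k]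
  apply cb.Φ_eq_of_cast
  intro i
  rw [toZModPow_ofIntSeq_of_pow_dvd_sub (fun k => c k i) p (hcompat i) k]

section endo

/-- the action of an additive endomorphism on the coordinates: existence -/
lemma exists_tateFun (f : AddMonoid.End A) (a : Fin h → ℤ_[p]) :
    ∃ b : Fin h → ℤ_[p], ∀ k, cb.Φ b k = f (cb.Φ a k) := by
  apply cb.Φ_surjective
  · rw [cb.Φ_zero_right, map_zero]
  · intro k
    rw [← map_nsmul, cb.Φ_succ]

/-- the action of an additive endomorphism of `A` on `ℤ_p^h` -/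
noncomputable def tateFun (f : AddMonoid.End A) (a : Fin h → ℤ_[p]) : Fin h → ℤ_[p] :=
  Classical.choose (cb.exists_tateFun f a)

lemma Φ_tateFun (f : AddMonoid.End A) (a : Fin h → ℤ_[p]) (k : ℕ) :
    cb.Φ (cb.tateFun f a) k = f (cb.Φ a k) :=
  Classical.choose_spec (cb.exists_tateFun f a) k

/-- the action of an additive endomorphism of `A` on `ℤ_p^h`, as a `ℤ_p`-linear map -/
noncomputable def tateLin (f : AddMonoid.End A) : (Fin h → ℤ_[p]) →ₗ[ℤ_[p]] (Fin h → ℤ_[p]) where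
  toFun := cb.tateFun f
  map_add' a b := by
    apply cb.Φ_injective
    intro k
    rw [cb.Φ_tateFun, cb.Φ_add, cb.Φ_add, map_add, cb.Φ_tateFun, cb.Φ_tateFun]
  map_smul' c a := by
    apply cb.Φ_injective
    intro k
    rw [cb.Φ_tateFun, RingHom.id_apply, cb.Φ_smul, cb.Φ_smul, map_nsmul, cb.Φ_tateFun]

lemma Φ_tateLin (f : AddMonoid.End A) (a : Fin h → ℤ_[p]) (k : ℕ) :
    cb.Φ (cb.tateLin f a) k = f (cb.Φ a k) :=
  cb.Φ_tateFun f a k

/-- **the Tate-module functor on endomorphisms**: a ring homomorphism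
`End(A) → End_{ℤ_p}(ℤ_p^h)` -/
noncomputable def tateEnd : AddMonoid.End A →+* Module.End ℤ_[p] (Fin h → ℤ_[p]) where
  toFun f := cb.tateLin f
  map_one' := by
    apply LinearMap.ext
    intro a
    apply cb.Φ_injective
    intro k
    rw [cb.Φ_tateLin]
    rfl
  map_mul' f g := by
    apply LinearMap.ext
    intro a
    apply cb.Φ_injective
    intro k
    rw [cb.Φ_tateLin, Module.End.mul_apply, cb.Φ_tateLin, cb.Φ_tateLin]
    rfl
  map_zero' := by
    apply LinearMap.ext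
    intro a
    apply cb.Φ_injective
    intro k
    rw [cb.Φ_tateLin, LinearMap.zero_apply, cb.Φ_zero_left]
    rfl
  map_add' f g := by
    apply LinearMap.ext
    intro a
    apply cb.Φ_injective
    intro k
    rw [cb.Φ_tateLin, LinearMap.add_apply, cb.Φ_add, cb.Φ_tateLin, cb.Φ_tateLin]
    rfl

@[simp] lemma Φ_tateEnd (f : AddMonoid.End A) (a : Fin h → ℤ_[p]) (k : ℕ) :
    cb.Φ (cb.tateEnd f a) k = f (cb.Φ a k) :=
  cb.Φ_tateFun f a k

/-- if `f` kills `A[p^n]` then `tateEnd f` maps into `p^n ℤ_p^h` (coordinatewise) -/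
theorem tateEnd_apply_mem_span (f : AddMonoid.End A) (n : ℕ)
    (hf : ∀ x : A, p ^ n • x = 0 → f x = 0) (a : Fin h → ℤ_[p]) (i : Fin h) :
    cb.tateEnd f a i ∈ Ideal.span {(p : ℤ_[p]) ^ n} := by
  have h1 : cb.Φ (cb.tateEnd f a) n = 0 := by
    rw [cb.Φ_tateEnd]
    exact hf _ (cb.Φ_torsion a n)
  exact (cb.Φ_eq_zero_iff _ n).mp h1 i

/-- conversely, if `tateEnd f` maps into `p^n ℤ_p^h` then `f` kills `A[p^n]` -/
theorem eq_zero_of_tateEnd_apply_mem_span (f : AddMonoid.End A) (n : ℕ)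
    (hf : ∀ (a : Fin h → ℤ_[p]) (i : Fin h), cb.tateEnd f a i ∈ Ideal.span {(p : ℤ_[p]) ^ n})
    (x : A) (hx : p ^ n • x = 0) : f x = 0 := by
  obtain ⟨a, rfl⟩ := cb.Φ_surjective_level n x hx
  rw [← cb.Φ_tateEnd]
  exact (cb.Φ_eq_zero_iff _ n).mpr (hf a)

/-- `tateEnd f = 0` iff `f` kills all `p`-power torsion -/
theorem tateEnd_eq_zero_iff (f : AddMonoid.End A) :
    cb.tateEnd f = 0 ↔ ∀ (n : ℕ) (x : A), p ^ n • x = 0 → f x = 0 := by
  constructor
  · intro hf n x hx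
    apply cb.eq_zero_of_tateEnd_apply_mem_span f n _ x hx
    intro a i
    rw [hf]
    exact Ideal.zero_mem _
  · intro hf
    apply LinearMap.ext
    intro a
    apply cb.Φ_injective
    intro k
    rw [cb.Φ_tateEnd, LinearMap.zero_apply, cb.Φ_zero_left]
    exact hf k _ (cb.Φ_torsion a k)

/-- if `f` kills `A[p^n]` then `tateEnd f` maps into `𝔪^n • ⊤` -/
theorem tateEnd_mem_smul_top (f : AddMonoid.End A) (n : ℕ)
    (hf : ∀ x : A, p ^ n • x = 0 → f x = 0) (a : Fin h → ℤ_[p]) :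
    cb.tateEnd f a ∈
      (IsLocalRing.maximalIdeal ℤ_[p] ^ n) • (⊤ : Submodule ℤ_[p] (Fin h → ℤ_[p])) := by
  have h1 := cb.tateEnd_apply_mem_span f n hf a
  have h2 : ∀ i, ∃ d : ℤ_[p], cb.tateEnd f a i = (p : ℤ_[p]) ^ n * d := fun i => by
    obtain ⟨d, hd⟩ := Ideal.mem_span_singleton.mp (h1 i)
    exact ⟨d, hd⟩
  choose d hd using h2
  have h3 : cb.tateEnd f a = ((p : ℤ_[p]) ^ n) • d := by
    funext i
    rw [hd i, Pi.smul_apply, smul_eq_mul]
  rw [h3]
  apply Submodule.smul_mem_smul _ Submodule.mem_top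
  rw [maximalIdeal_eq_span_p, Ideal.span_singleton_pow]
  exact Ideal.mem_span_singleton_self _

end endo

section rep

variable {G : Type*} [Group G] [DistribMulAction G A]

/-- the `p`-adic representation of a group acting on `A` by additive automorphisms -/
noncomputable def tateRep (G : Type*) [Group G] [DistribMulAction G A] :
    G →* Module.End ℤ_[p] (Fin h → ℤ_[p]) :=
  (cb.tateEnd.toMonoidHom).comp (DistribMulAction.toAddMonoidEnd G A)

@[simp] lemma Φ_tateRep (g : G) (a : Fin h → ℤ_[p]) (k : ℕ) :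
    cb.Φ (cb.tateRep G g a) k = g • cb.Φ a k :=
  cb.Φ_tateEnd _ a k

lemma tateRep_eq_tateEnd (g : G) :
    cb.tateRep G g = cb.tateEnd (DistribMulAction.toAddMonoidEnd G A g) := rfl

/-- if `g` fixes `A[p^n]` pointwise then `ρ(g) ≡ 1 mod 𝔪^n` -/
theorem tateRep_sub_mem (g : G) (n : ℕ) (hg : ∀ x : A, p ^ n • x = 0 → g • x = x)
    (a : Fin h → ℤ_[p]) :
    cb.tateRep G g a - a ∈
      (IsLocalRing.maximalIdeal ℤ_[p] ^ n) • (⊤ : Submodule ℤ_[p] (Fin h → ℤ_[p])) := by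
  have h1 := cb.tateEnd_mem_smul_top (DistribMulAction.toAddMonoidEnd G A g - 1) n
    (fun x hx => by
      change g • x - x = 0
      rw [sub_eq_zero]
      exact hg x hx) a
  rw [map_sub, map_one, LinearMap.sub_apply, Module.End.one_apply] at h1
  exact h1

/-- `ρ(g) = 1` iff `g` fixes all `p`-power torsion -/
theorem tateRep_eq_one_iff (g : G) :
    cb.tateRep G g = 1 ↔ ∀ (n : ℕ) (x : A), p ^ n • x = 0 → g • x = x := by
  rw [tateRep_eq_tateEnd, ← sub_eq_zero, ← map_one cb.tateEnd, ← map_sub, cb.tateEnd_eq_zero_iff]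
  refine forall_congr' fun n => forall_congr' fun x => ?_
  change (p ^ n • x = 0 → g • x - x = 0) ↔ _
  rw [sub_eq_zero]

/-- an integral quadratic relation satisfied by `g` on the `p`-power torsion is satisfied by
`ρ(g)` -/
theorem tateRep_quadratic (g : G) (a b : ℤ)
    (hg : ∀ (n : ℕ) (x : A), p ^ n • x = 0 → g • g • x - a • g • x + b • x = 0) :
    cb.tateRep G g * cb.tateRep G g - (a : ℤ_[p]) • cb.tateRep G g
      + (b : ℤ_[p]) • (1 : Module.End ℤ_[p] (Fin h → ℤ_[p])) = 0 := by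
  have h1 : cb.tateEnd (DistribMulAction.toAddMonoidEnd G A g * DistribMulAction.toAddMonoidEnd G A g
      - a • DistribMulAction.toAddMonoidEnd G A g + b • (1 : AddMonoid.End A)) = 0 := by
    rw [cb.tateEnd_eq_zero_iff]
    intro n x hx
    exact hg n x hx
  rw [map_add, map_sub, map_mul, map_zsmul, map_zsmul, map_one] at h1
  rw [tateRep_eq_tateEnd, ← h1]
  have e1 : ∀ (z : ℤ) (T : Module.End ℤ_[p] (Fin h → ℤ_[p])), (z : ℤ_[p]) • T = z • T := by
    intro z T
    exact Int.cast_smul_eq_zsmul ℤ_[p] z T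
  rw [e1, e1]

end rep

end CompatBasis

end Fermat.Agent.S59.H127
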