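import Mathlib
import Fermat.Prelude.Def_GaloisRep_Adic
import Fermat.Prelude.Def_FLTPrelim_GaloisRep
import Fermat.Agent.S59.H127.CardTorsion
import Fermat.Agent.S59.H127.TateEnd

/-!
# E-side foundation, part 5: the `p`-adic Tate module of an elliptic curve over `ℚ`

* `nonempty_compatBasis_point` : over an algebraically closed field of characteristic `0`, the
  torsion `E[p^k]` has a compatible system of bases (`E[p^k] ≃ (ℤ/p^k)^2` compatibly in `k`);
* `tateGaloisRep W' cb : GaloisRepAdic ℤ_[p]` : the `p`-adic Galois representation on the Tate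
  module of an elliptic curve `W'` over `ℚ` (in the coordinates given by `cb`), with
  `Φ_tateGaloisRep : cb.Φ (ρ σ a) k = σ • cb.Φ a k`.
-/

open WeierstrassCurve WeierstrassCurve.Affine
open scoped WeierstrassCurve.Affine

namespace Fermat.Agent.S59.H127

section general

variable {K : Type*} [Field K] [DecidableEq K] [IsAlgClosed K] [CharZero K]

/-- `E[p^∞]` is `p`-divisible of height `2` -/
theorem nonempty_compatBasis_point (E : WeierstrassCurve.Affine K) [E.IsElliptic] (p : ℕ)
    [hp : Fact p.Prime] : Nonempty (CompatBasis E.Point p 2) :=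
  nonempty_compatBasis p 2 (fun P => exists_nsmul_eq p hp.out.one_le P) (card_torsion_eq E p)

end general

section coords

variable {K : Type*} [Field K] [DecidableEq K] {E : WeierstrassCurve.Affine K}

/-- the (finite) set of coordinates of a point -/
def coordSet : E.Point → Set K
  | .zero => ∅
  | .some x y _ => {x, y}

omit [DecidableEq K] in
lemma finite_coordSet (P : E.Point) : (coordSet P).Finite := by
  cases P with
  | zero => exact Set.finite_empty
  | some x y h => exact Set.toFinite {x, y}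

end coords

section galois

/-- the absolute Galois group of `ℚ` -/
abbrev GQ : Type := AlgebraicClosure ℚ ≃ₐ[ℚ] AlgebraicClosure ℚ

variable (W' : WeierstrassCurve.Affine ℚ)

/-- an automorphism fixing the coordinates of a point fixes the point -/
lemma smul_eq_self_of_coordSet (σ : GQ) (P : (W'⁄(AlgebraicClosure ℚ)).Point)
    (hσ : ∀ x ∈ coordSet P, σ x = x) : σ • P = P := by
  cases P with
  | zero => rfl
  | some x y h =>
    rw [Point.algEquiv_smul_def, Point.map_some]
    have hx : σ x = x := hσ x (Set.mem_insert _ _)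
    have hy : σ y = y := hσ y (Set.mem_insert_of_mem _ rfl)
    rw [Point.some.injEq]
    exact ⟨hx, hy⟩

variable [hE : (W'⁄(AlgebraicClosure ℚ)).IsElliptic]

/-- the `p^n`-torsion of `E(ℚ̄)` is fixed by the Galois group of a finite extension -/
theorem exists_finite_level (m : ℕ) (hm : 1 ≤ m) :
    ∃ L : IntermediateField ℚ (AlgebraicClosure ℚ), FiniteDimensional ℚ L ∧
      ∀ σ : GQ, (∀ x ∈ L, σ x = x) →
        ∀ P : (W'⁄(AlgebraicClosure ℚ)).Point, m • P = 0 → σ • P = P := by
  classical
  have hfin := finite_torsion (W'⁄(AlgebraicClosure ℚ)) m hm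
  have hTfin : {P : (W'⁄(AlgebraicClosure ℚ)).Point | m • P = 0}.Finite := by
    have : {P : (W'⁄(AlgebraicClosure ℚ)).Point | m • P = 0} =
        ((Submodule.torsionBy ℤ (W'⁄(AlgebraicClosure ℚ)).Point ((m : ℕ) : ℤ) :
          Set (W'⁄(AlgebraicClosure ℚ)).Point)) := by
      ext P
      exact mem_torsionBy_natCast_iff.symm
    rw [this]
    exact Set.toFinite _
  have hSfin : (⋃ P ∈ {P : (W'⁄(AlgebraicClosure ℚ)).Point | m • P = 0}, coordSet P).Finite :=
    hTfin.biUnion fun P _ => finite_coordSet P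
  have : Finite (⋃ P ∈ {P : (W'⁄(AlgebraicClosure ℚ)).Point | m • P = 0}, coordSet P) :=
    hSfin.to_subtype
  refine ⟨IntermediateField.adjoin ℚ
    (⋃ P ∈ {P : (W'⁄(AlgebraicClosure ℚ)).Point | m • P = 0}, coordSet P), ?_, ?_⟩
  · have halg : Algebra.IsAlgebraic ℚ (AlgebraicClosure ℚ) := AlgebraicClosure.isAlgebraic ℚ
    exact IntermediateField.finiteDimensional_adjoin fun x _ =>
      (Algebra.IsAlgebraic.isAlgebraic x).isIntegral
  · intro σ hσ P hP
    apply smul_eq_self_of_coordSet
    intro x hx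
    apply hσ
    apply IntermediateField.subset_adjoin
    exact Set.mem_biUnion (show P ∈ {P : (W'⁄(AlgebraicClosure ℚ)).Point | m • P = 0} from hP) hx

variable {p : ℕ} [hp : Fact p.Prime]

/-- **the `p`-adic Tate module of an elliptic curve over `ℚ`** as a `GaloisRepAdic ℤ_[p]`,
in the coordinates given by a compatible system of bases `cb` of the `E[p^k]` -/
noncomputable def tateGaloisRep (cb : CompatBasis (W'⁄(AlgebraicClosure ℚ)).Point p 2) :
    GaloisRepAdic ℤ_[p] where
  V := Fin 2 → ℤ_[p]
  finrank_eq := by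
    rw [Module.finrank_pi, Fintype.card_fin]
  ρ := cb.tateRep GQ
  isAdicContinuous := by
    intro n
    obtain ⟨L, hL, hfix⟩ := exists_finite_level W' (p ^ n) (Nat.one_le_pow _ _ hp.out.pos)
    exact ⟨L, hL, fun σ hσ v => cb.tateRep_sub_mem σ n (fun x hx => hfix σ hσ x hx) v⟩

/-- the defining property of the Tate representation -/
theorem Φ_tateGaloisRep (cb : CompatBasis (W'⁄(AlgebraicClosure ℚ)).Point p 2) (σ : GQ)
    (a : Fin 2 → ℤ_[p]) (k : ℕ) :
    cb.Φ ((tateGaloisRep W' cb).ρ σ a) k = σ • cb.Φ a k :=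
  cb.Φ_tateRep σ a k

/-- the Tate representation is unramified at `q` as soon as the inertia groups at `q` act
trivially on the `p`-power torsion -/
theorem tateGaloisRep_isUnramifiedAt (cb : CompatBasis (W'⁄(AlgebraicClosure ℚ)).Point p 2)
    (q : ℕ)
    (h : ∀ P : ValuationSubring (AlgebraicClosure ℚ), P.LiesOverPrime q →
      ∀ σ ∈ P.inertiaSubgroupIn ℚ, ∀ (n : ℕ) (x : (W'⁄(AlgebraicClosure ℚ)).Point),
        p ^ n • x = 0 → σ • x = x) :
    (tateGaloisRep W' cb).IsUnramifiedAt q := by
  intro P hP σ hσ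
  exact (cb.tateRep_eq_one_iff σ).mpr (h P hP σ hσ)

/-- conversely, if the Tate representation is unramified at `q`, inertia acts trivially on the
`p`-power torsion -/
theorem smul_eq_of_isUnramifiedAt (cb : CompatBasis (W'⁄(AlgebraicClosure ℚ)).Point p 2)
    (q : ℕ) (h : (tateGaloisRep W' cb).IsUnramifiedAt q)
    (P : ValuationSubring (AlgebraicClosure ℚ)) (hP : P.LiesOverPrime q)
    (σ : GQ) (hσ : σ ∈ P.inertiaSubgroupIn ℚ) (n : ℕ) (x : (W'⁄(AlgebraicClosure ℚ)).Point)
    (hx : p ^ n • x = 0) : σ • x = x :=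
  (cb.tateRep_eq_one_iff σ).mp (h P hP σ hσ) n x hx

/-- an integral quadratic relation on the `p`-power torsion lifts to the Tate representation -/
theorem tateGaloisRep_quadratic (cb : CompatBasis (W'⁄(AlgebraicClosure ℚ)).Point p 2)
    (σ : GQ) (a b : ℤ)
    (hσ : ∀ (n : ℕ) (x : (W'⁄(AlgebraicClosure ℚ)).Point), p ^ n • x = 0 →
      σ • σ • x - a • σ • x + b • x = 0) :
    (tateGaloisRep W' cb).ρ σ * (tateGaloisRep W' cb).ρ σ
      - (a : ℤ_[p]) • (tateGaloisRep W' cb).ρ σ
      + (b : ℤ_[p]) • (1 : Module.End ℤ_[p] (tateGaloisRep W' cb).V) = 0 :=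
  cb.tateRep_quadratic σ a b hσ

end galois

end Fermat.Agent.S59.H127
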