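import Mathlib

/-!
# E-side foundation, part 8: two lemmas on `2 × 2` linear algebra over a domain

* `charpoly_eq_of_quadratic_of_det` : if `T² - a T + b = 0`, `det T = b ≠ 0` on a free module of
  rank `2` over a domain then `charpoly T = X² - a X + b`;
* `charpoly_eq_of_sub_one_sq` : if `T² - 2 T + 1 = 0` then `charpoly T = (X - 1)²`.
-/

open Polynomial

namespace Fermat.Agent.S59.H127

section matrix

variable {R : Type*} [CommRing R] [IsDomain R]

omit [IsDomain R] in
/-- Cayley–Hamilton for `2 × 2` matrices, explicitly -/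
lemma cayley_hamilton_fin_two (M : Matrix (Fin 2) (Fin 2) R) :
    M * M - M.trace • M + M.det • (1 : Matrix (Fin 2) (Fin 2) R) = 0 := by
  ext i j
  fin_cases i <;> fin_cases j <;>
    simp [Matrix.mul_apply, Matrix.trace_fin_two, Matrix.det_fin_two, Fin.sum_univ_two] <;>
    ring

lemma matrix_trace_eq_of_quadratic_of_det (M : Matrix (Fin 2) (Fin 2) R) (a b : R) (hb : b ≠ 0)
    (hrel : M * M - a • M + b • (1 : Matrix (Fin 2) (Fin 2) R) = 0) (hdet : M.det = b) :
    M.trace = a := by
  have hch := cayley_hamilton_fin_two M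
  rw [hdet] at hch
  have h1 : (M.trace - a) • M = 0 := by
    have : (M.trace - a) • M = (M * M - a • M + b • (1 : Matrix (Fin 2) (Fin 2) R))
        - (M * M - M.trace • M + b • (1 : Matrix (Fin 2) (Fin 2) R)) := by
      rw [sub_smul]; abel
    rw [this, hrel, hch, sub_zero]
  by_contra hne
  have hM : M = 0 := by
    rcases smul_eq_zero.mp h1 with h | h
    · exact absurd (sub_eq_zero.mp h) hne
    · exact h
  rw [hM, Matrix.det_zero] at hdet
  exact hb hdet.symm

lemma matrix_charpoly_eq_of_sub_one_sq (M : Matrix (Fin 2) (Fin 2) R)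
    (hrel : M * M - (2 : R) • M + (1 : Matrix (Fin 2) (Fin 2) R) = 0) :
    M.charpoly = (X - 1) ^ 2 := by
  have hN : IsNilpotent (M - 1) := by
    refine ⟨2, ?_⟩
    have : (M - 1) ^ 2 = M * M - (2 : R) • M + 1 := by
      rw [pow_two, sub_mul, mul_sub, mul_sub, mul_one, one_mul, mul_one, two_smul]
      abel
    rw [this, hrel]
  have h1 : (M - 1).charpoly = X ^ 2 := by
    have := Matrix.isNilpotent_charpoly_sub_pow_of_isNilpotent hN
    rw [Fintype.card_fin] at this
    exact sub_eq_zero.mp (IsNilpotent.eq_zero this)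
  have h2 : (M - 1).charpoly = M.charpoly.comp (X + C 1) := by
    have := Matrix.charpoly_sub_scalar M (1 : R)
    rwa [map_one] at this
  have h3 : M.charpoly = (M.charpoly.comp (X + C 1)).comp (X - C 1) := by
    rw [comp_assoc]
    simp
  rw [h3, ← h2, h1]
  simp

end matrix

section linearMap

variable {R : Type*} [CommRing R] [IsDomain R] {V : Type*} [AddCommGroup V] [Module R V]
  [Module.Free R V] [Module.Finite R V]

/-- if `T² - a T + b = 0` and `det T = b ≠ 0` in rank `2`, then `charpoly T = X² - a X + b` -/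
theorem charpoly_eq_of_quadratic_of_det (h2 : Module.finrank R V = 2) (T : Module.End R V)
    (a b : R) (hb : b ≠ 0) (hrel : T * T - a • T + b • (1 : Module.End R V) = 0)
    (hdet : LinearMap.det T = b) :
    LinearMap.charpoly T = X ^ 2 - C a * X + C b := by
  let e := Module.finBasisOfFinrankEq R V h2
  have hM : LinearMap.toMatrix e e T * LinearMap.toMatrix e e T
      - a • LinearMap.toMatrix e e T + b • (1 : Matrix (Fin 2) (Fin 2) R) = 0 := by
    have := congrArg (LinearMap.toMatrixAlgEquiv e) hrel
    rw [map_add, map_sub, map_mul, map_smul, map_smul, map_one, map_zero] at this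
    exact this
  have hd : (LinearMap.toMatrix e e T).det = b := by
    rw [LinearMap.det_toMatrix, hdet]
  have ht := matrix_trace_eq_of_quadratic_of_det _ a b hb hM hd
  rw [← LinearMap.charpoly_toMatrix T e, Matrix.charpoly_fin_two, ht, hd]

/-- if `(T - 1)² = 0` in rank `2`, then `charpoly T = (X - 1)²` -/
theorem charpoly_eq_of_sub_one_sq (h2 : Module.finrank R V = 2) (T : Module.End R V)
    (hrel : T * T - (2 : R) • T + (1 : Module.End R V) = 0) :
    LinearMap.charpoly T = (X - 1) ^ 2 := by
  let e := Module.finBasisOfFinrankEq R V h2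
  have hM : LinearMap.toMatrix e e T * LinearMap.toMatrix e e T
      - (2 : R) • LinearMap.toMatrix e e T + (1 : Matrix (Fin 2) (Fin 2) R) = 0 := by
    have := congrArg (LinearMap.toMatrixAlgEquiv e) hrel
    rw [map_add, map_sub, map_mul, map_smul, map_one, map_zero] at this
    exact this
  rw [← LinearMap.charpoly_toMatrix T e]
  exact matrix_charpoly_eq_of_sub_one_sq _ hM

end linearMap

end Fermat.Agent.S59.H127
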