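import Mathlib
import Fermat.Agent.S59.H127.TateEnd

/-!
# E-side foundation, part 6: bridge between the finite levels and the Tate module

Abstract algebra (Mathlib only).  Let `cb : CompatBasis A p h`, let `f` be an additive
endomorphism of `A` and `T = cb.tateEnd f` the induced `ℤ_p`-linear endomorphism of `ℤ_p^h`.
For every `n` and EVERY `ZMod (p^n)`-module structure on `A[p^n] = torsionBy ℤ A (p^n)`:

* `cb.levelBasis n` : the basis `(B n i)_i` of `A[p^n]` over `ZMod (p^n)`; in particular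
  `A[p^n]` is free of rank `h` over `ZMod (p^n)`;
* `toMatrix_level` : the matrix of (the restriction of) `f` to `A[p^n]` in this basis is the
  reduction mod `p^n` of the matrix of `T`;
* `charpoly_level`, `det_level`, `trace_level` : consequently the characteristic polynomial,
  determinant and trace of `f` on `A[p^n]` are the reductions of those of `T`;
* `charpoly_eq_of_level`, `det_sub_mem_of_level` : conversely, `charpoly T` / `det T` are
  determined by the finite levels.
-/

open PadicInt Polynomial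

namespace Fermat.Agent.S59.H127

variable {A : Type*} [AddCommGroup A] {p h : ℕ} [hp : Fact p.Prime]

namespace CompatBasis

variable (cb : CompatBasis A p h)

section level

variable (n : ℕ)

omit hp in
lemma B_mem (i : Fin h) : cb.B n i ∈ Submodule.torsionBy ℤ A ((p ^ n : ℕ) : ℤ) := by
  rw [Submodule.mem_torsionBy_iff, natCast_zsmul]
  exact cb.pow_smul_self n i

/-- the basis vectors, as elements of `A[p^n]` -/
def levelVec (i : Fin h) : Submodule.torsionBy ℤ A ((p ^ n : ℕ) : ℤ) := ⟨cb.B n i, cb.B_mem n i⟩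

omit hp in
lemma coe_sum_zsmul_levelVec (c : Fin h → ℤ) :
    ((∑ i, c i • cb.levelVec n i : Submodule.torsionBy ℤ A ((p ^ n : ℕ) : ℤ)) : A)
      = ∑ i, c i • cb.B n i := by
  rw [Submodule.coe_sum]
  refine Finset.sum_congr rfl fun j _ => ?_
  rw [Submodule.coe_smul_of_tower]
  rfl

variable [Module (ZMod (p ^ n)) (Submodule.torsionBy ℤ A ((p ^ n : ℕ) : ℤ))]

omit hp in
lemma sum_smul_levelVec_eq (g : Fin h → ZMod (p ^ n)) (c : Fin h → ℤ)
    (hc : ∀ i, ((c i : ℤ) : ZMod (p ^ n)) = g i) :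
    ∑ i, g i • cb.levelVec n i = ∑ i, c i • cb.levelVec n i := by
  refine Finset.sum_congr rfl fun j _ => ?_
  rw [← hc j, Int.cast_smul_eq_zsmul]

omit hp in
lemma linearIndependent_levelVec :
    LinearIndependent (ZMod (p ^ n)) (cb.levelVec n) := by
  rw [Fintype.linearIndependent_iff]
  intro g hg i
  have hc : ∀ i, (((g i).cast : ℤ) : ZMod (p ^ n)) = g i := fun i => ZMod.intCast_zmod_cast _
  rw [cb.sum_smul_levelVec_eq n g (fun i => ((g i).cast : ℤ)) hc] at hg
  have h1 := congrArg (Subtype.val) hg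
  rw [cb.coe_sum_zsmul_levelVec, Submodule.coe_zero] at h1
  have h2 := cb.indep n _ h1 i
  rw [← hc i, ZMod.intCast_zmod_eq_zero_iff_dvd, Nat.cast_pow]
  exact h2

omit hp in
lemma span_levelVec :
    ⊤ ≤ Submodule.span (ZMod (p ^ n)) (Set.range (cb.levelVec n)) := by
  intro x _
  have hx : p ^ n • (x : A) = 0 := by
    have := x.2
    rwa [Submodule.mem_torsionBy_iff, natCast_zsmul] at this
  obtain ⟨c, hc⟩ := cb.span n x hx
  have hx' : x = ∑ i, ((c i : ℤ) : ZMod (p ^ n)) • cb.levelVec n i := by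
    rw [cb.sum_smul_levelVec_eq n _ c (fun _ => rfl)]
    apply Subtype.ext
    rw [cb.coe_sum_zsmul_levelVec, hc]
  rw [hx']
  exact Submodule.sum_mem _ fun i _ =>
    Submodule.smul_mem _ _ (Submodule.subset_span (Set.mem_range_self i))

/-- **the basis `(B n i)_i` of `A[p^n]` over `ZMod (p^n)`** -/
noncomputable def levelBasis :
    Module.Basis (Fin h) (ZMod (p ^ n)) (Submodule.torsionBy ℤ A ((p ^ n : ℕ) : ℤ)) :=
  Module.Basis.mk (cb.linearIndependent_levelVec n) (cb.span_levelVec n)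

omit hp in
@[simp] lemma levelBasis_apply (i : Fin h) : cb.levelBasis n i = cb.levelVec n i := by
  rw [levelBasis, Module.Basis.mk_apply]

omit hp in
lemma coe_levelBasis (i : Fin h) :
    ((cb.levelBasis n i : Submodule.torsionBy ℤ A ((p ^ n : ℕ) : ℤ)) : A) = cb.B n i := by
  rw [levelBasis_apply]
  rfl

omit hp in
include cb in
/-- `A[p^n]` is free over `ZMod (p^n)` -/
theorem free_level : Module.Free (ZMod (p ^ n)) (Submodule.torsionBy ℤ A ((p ^ n : ℕ) : ℤ)) :=
  Module.Free.of_basis (cb.levelBasis n)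

omit hp in
include cb in
/-- `A[p^n]` is finite over `ZMod (p^n)` -/
theorem finite_level :
    Module.Finite (ZMod (p ^ n)) (Submodule.torsionBy ℤ A ((p ^ n : ℕ) : ℤ)) :=
  Module.Finite.of_basis (cb.levelBasis n)

omit hp in
/-- coordinates in the level basis -/
lemma levelBasis_repr_eq (x : Submodule.torsionBy ℤ A ((p ^ n : ℕ) : ℤ)) (c : Fin h → ℤ)
    (hc : (x : A) = ∑ i, c i • cb.B n i) (i : Fin h) :
    (cb.levelBasis n).repr x i = ((c i : ℤ) : ZMod (p ^ n)) := by
  have hx : x = ∑ i, ((c i : ℤ) : ZMod (p ^ n)) • cb.levelBasis n i := by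
    simp only [levelBasis_apply]
    rw [cb.sum_smul_levelVec_eq n _ c (fun _ => rfl)]
    apply Subtype.ext
    rw [cb.coe_sum_zsmul_levelVec, hc]
  conv_lhs => rw [hx]
  rw [map_sum, Finset.sum_apply']
  simp only [map_smul, Module.Basis.repr_self, Finsupp.smul_apply, smul_eq_mul]
  rw [Finset.sum_eq_single i]
  · rw [Finsupp.single_eq_same, mul_one]
  · intro j _ hji
    rw [Finsupp.single_eq_of_ne hji.symm, mul_zero]
  · intro hi
    exact absurd (Finset.mem_univ i) hi

end level

section matrix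

variable (n : ℕ) [Module (ZMod (p ^ n)) (Submodule.torsionBy ℤ A ((p ^ n : ℕ) : ℤ))]

omit [Module (ZMod (p ^ n)) (Submodule.torsionBy ℤ A ((p ^ n : ℕ) : ℤ))] in
/-- the image of a basis vector under `f` in terms of the matrix of `tateEnd f` -/
lemma apply_B_eq (f : AddMonoid.End A) (j : Fin h) (c : Fin h → ℤ)
    (hc : ∀ i, ((c i : ℤ) : ZMod (p ^ n)) =
      toZModPow n (cb.tateEnd f (Pi.single j (1 : ℤ_[p])) i)) :
    f (cb.B n j) = ∑ i, c i • cb.B n i := by
  rw [← cb.Φ_single j n, ← cb.Φ_tateEnd]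
  exact cb.Φ_eq_of_cast _ n c hc

/-- **the matrix of `f` on `A[p^n]` is the reduction of the matrix of `tateEnd f`** -/
theorem toMatrix_level (f : AddMonoid.End A)
    (g : Module.End (ZMod (p ^ n)) (Submodule.torsionBy ℤ A ((p ^ n : ℕ) : ℤ)))
    (hg : ∀ x, ((g x : Submodule.torsionBy ℤ A ((p ^ n : ℕ) : ℤ)) : A) = f (x : A)) :
    LinearMap.toMatrix (cb.levelBasis n) (cb.levelBasis n) g
      = (LinearMap.toMatrix' (cb.tateEnd f)).map (toZModPow n) := by
  ext i j
  rw [LinearMap.toMatrix_apply, Matrix.map_apply, LinearMap.toMatrix'_apply]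
  have h1 : ((g (cb.levelBasis n j) : Submodule.torsionBy ℤ A ((p ^ n : ℕ) : ℤ)) : A)
      = ∑ i, (((cb.tateEnd f (Pi.single j (1 : ℤ_[p])) i).appr n : ℕ) : ℤ) • cb.B n i := by
    rw [hg, cb.coe_levelBasis]
    exact cb.apply_B_eq n f j _ fun i => appr_cast_eq_toZModPow n _
  rw [cb.levelBasis_repr_eq n _ _ h1 i, appr_cast_eq_toZModPow]

/-- the characteristic polynomial of `f` on `A[p^n]` is the reduction of that of `tateEnd f` -/
theorem charpoly_level [Module.Free (ZMod (p ^ n)) (Submodule.torsionBy ℤ A ((p ^ n : ℕ) : ℤ))]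
    [Module.Finite (ZMod (p ^ n)) (Submodule.torsionBy ℤ A ((p ^ n : ℕ) : ℤ))]
    (f : AddMonoid.End A)
    (g : Module.End (ZMod (p ^ n)) (Submodule.torsionBy ℤ A ((p ^ n : ℕ) : ℤ)))
    (hg : ∀ x, ((g x : Submodule.torsionBy ℤ A ((p ^ n : ℕ) : ℤ)) : A) = f (x : A)) :
    LinearMap.charpoly g = (LinearMap.charpoly (cb.tateEnd f)).map (toZModPow n) := by
  rw [← LinearMap.charpoly_toMatrix g (cb.levelBasis n), cb.toMatrix_level n f g hg,
    ← LinearMap.charpoly_toMatrix (cb.tateEnd f) (Pi.basisFun ℤ_[p] (Fin h)),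
    Matrix.charpoly_map]
  rfl

/-- the determinant of `f` on `A[p^n]` is the reduction of that of `tateEnd f` -/
theorem det_level (f : AddMonoid.End A)
    (g : Module.End (ZMod (p ^ n)) (Submodule.torsionBy ℤ A ((p ^ n : ℕ) : ℤ)))
    (hg : ∀ x, ((g x : Submodule.torsionBy ℤ A ((p ^ n : ℕ) : ℤ)) : A) = f (x : A)) :
    LinearMap.det g = toZModPow n (LinearMap.det (cb.tateEnd f)) := by
  rw [← LinearMap.det_toMatrix (cb.levelBasis n), cb.toMatrix_level n f g hg,
    ← LinearMap.det_toMatrix (Pi.basisFun ℤ_[p] (Fin h)) (cb.tateEnd f), RingHom.map_det]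
  rfl

/-- the trace of `f` on `A[p^n]` is the reduction of that of `tateEnd f` -/
theorem trace_level (f : AddMonoid.End A)
    (g : Module.End (ZMod (p ^ n)) (Submodule.torsionBy ℤ A ((p ^ n : ℕ) : ℤ)))
    (hg : ∀ x, ((g x : Submodule.torsionBy ℤ A ((p ^ n : ℕ) : ℤ)) : A) = f (x : A)) :
    LinearMap.trace (ZMod (p ^ n)) _ g
      = toZModPow n (LinearMap.trace ℤ_[p] _ (cb.tateEnd f)) := by
  rw [LinearMap.trace_eq_matrix_trace (ZMod (p ^ n)) (cb.levelBasis n), cb.toMatrix_level n f g hg,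
    LinearMap.trace_eq_matrix_trace ℤ_[p] (Pi.basisFun ℤ_[p] (Fin h)), Matrix.trace,
    Matrix.trace, map_sum]
  rfl

end matrix

end CompatBasis

section lift

/-- a polynomial over `ℤ_p` is determined by its reductions modulo all `p^n` -/
theorem poly_eq_of_map_toZModPow {P Q : ℤ_[p][X]}
    (hPQ : ∀ n : ℕ, P.map (toZModPow n) = Q.map (toZModPow n)) : P = Q := by
  ext k
  apply ext_of_toZModPow.mp
  intro n
  have := congrArg (fun R => R.coeff k) (hPQ n)
  simpa only [coeff_map] using this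

end lift

end Fermat.Agent.S59.H127
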