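import Mathlib
import Fermat.Prelude.Def_GaloisRep_Adic
import Fermat.Prelude.Def_GaloisRep_LocalConditions
import Fermat.Prelude.Def_EllipticCurve_FrobeniusTrace
import Fermat.Agent.S59.H127.TateE
import Fermat.Agent.S59.H127.Bridge

/-!
# E-side foundation, part 7: finite levels of the Tate module of an elliptic curve over `ℚ`

For `W' : Affine ℚ` elliptic, `ρ = tateGaloisRep W' cb` and the Prelude's finite-level
representations `galoisRepModuleEnd ℚ W' (p^n)` on `E[p^n]` (a `ZMod (p^n)`-module):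

* `free_torsion_pow`, `finite_torsion_pow` : `E[p^n]` is finite free over `ZMod (p^n)`;
* `charpoly_tate_map`, `det_tate_map`, `trace_tate_map` : the characteristic polynomial /
  determinant / trace of `ρ σ` reduce mod `p^n` to those of `σ` on `E[p^n]`;
* `charpoly_tate_eq_of_level` : if `σ` has characteristic polynomial `X² - aX + b` on every
  `E[p^n]` then so has `ρ σ`;
* `det_tate_sub_mem_of_level` : the form needed for `DetIsCyclotomic`;
* `detIsCyclotomic_of_level`, `isUnipotentOnInertiaAt_of_level`;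
* `galoisFactorsThroughFiniteLevel_torsion` : the field `hker` of `CurveRep`.
-/

open PadicInt Polynomial WeierstrassCurve WeierstrassCurve.Affine
open scoped WeierstrassCurve.Affine

namespace Fermat.Agent.S59.H127

variable (W' : WeierstrassCurve.Affine ℚ) [hE : (W'⁄(AlgebraicClosure ℚ)).IsElliptic]
variable {p : ℕ} [hp : Fact p.Prime]

section finiteLevel

/-- the action on `E[m]` factors through a finite quotient of the Galois group -/
theorem galoisFactorsThroughFiniteLevel_torsion (m : ℕ) (hm : 1 ≤ m) :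
    GaloisFactorsThroughFiniteLevel
      (WeierstrassCurve.Affine.Point.galoisRepModuleEnd (K := AlgebraicClosure ℚ) ℚ W' m) := by
  obtain ⟨L, hL, hfix⟩ := exists_finite_level W' m hm
  refine ⟨L, hL, fun σ hσ => ?_⟩
  apply LinearMap.ext
  intro x
  apply Subtype.ext
  exact hfix σ hσ x (mem_torsionBy_natCast_iff.mp x.2)

/-- `#E[p] = p^2` (the field `hcard` of `CurveRep`) -/
theorem card_torsion_prime (p : ℕ) :
    Nat.card (Submodule.torsionBy ℤ (W'⁄(AlgebraicClosure ℚ)).Point ((p : ℕ) : ℤ)) = p ^ 2 :=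
  card_torsion_eq _ p

variable (p) in
/-- `E[p^n]` is free over `ZMod (p^n)` -/
theorem free_torsion_pow (n : ℕ) :
    Module.Free (ZMod (p ^ n))
      (Submodule.torsionBy ℤ (W'⁄(AlgebraicClosure ℚ)).Point ((p ^ n : ℕ) : ℤ)) := by
  obtain ⟨cb⟩ := nonempty_compatBasis_point (W'⁄(AlgebraicClosure ℚ)) p
  exact cb.free_level n

variable (p) in
/-- `E[p^n]` is finite over `ZMod (p^n)` -/
theorem finite_torsion_pow (n : ℕ) :
    Module.Finite (ZMod (p ^ n))
      (Submodule.torsionBy ℤ (W'⁄(AlgebraicClosure ℚ)).Point ((p ^ n : ℕ) : ℤ)) := by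
  obtain ⟨cb⟩ := nonempty_compatBasis_point (W'⁄(AlgebraicClosure ℚ)) p
  exact cb.finite_level n

end finiteLevel

section bridge

variable (cb : CompatBasis (W'⁄(AlgebraicClosure ℚ)).Point p 2)

lemma tateGaloisRep_ρ (σ : GQ) :
    (tateGaloisRep W' cb).ρ σ
      = cb.tateEnd (DistribMulAction.toAddMonoidEnd GQ (W'⁄(AlgebraicClosure ℚ)).Point σ) :=
  rfl

/-- the characteristic polynomial of `ρ σ` reduces mod `p^n` to that of `σ` on `E[p^n]` -/
theorem charpoly_tate_map (σ : GQ) (n : ℕ)
    [Module.Free (ZMod (p ^ n))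
      (Submodule.torsionBy ℤ (W'⁄(AlgebraicClosure ℚ)).Point ((p ^ n : ℕ) : ℤ))]
    [Module.Finite (ZMod (p ^ n))
      (Submodule.torsionBy ℤ (W'⁄(AlgebraicClosure ℚ)).Point ((p ^ n : ℕ) : ℤ))] :
    (LinearMap.charpoly ((tateGaloisRep W' cb).ρ σ)).map (toZModPow n) =
      LinearMap.charpoly
        (WeierstrassCurve.Affine.Point.galoisRepModuleEnd (K := AlgebraicClosure ℚ) ℚ W'
          (p ^ n) σ) :=
  (cb.charpoly_level n _ _ (fun _ => rfl)).symm

/-- the determinant of `ρ σ` reduces mod `p^n` to that of `σ` on `E[p^n]` -/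
theorem det_tate_map (σ : GQ) (n : ℕ) :
    toZModPow n (LinearMap.det ((tateGaloisRep W' cb).ρ σ)) =
      LinearMap.det
        (WeierstrassCurve.Affine.Point.galoisRepModuleEnd (K := AlgebraicClosure ℚ) ℚ W'
          (p ^ n) σ) :=
  (cb.det_level n _ _ (fun _ => rfl)).symm

/-- the trace of `ρ σ` reduces mod `p^n` to that of `σ` on `E[p^n]` -/
theorem trace_tate_map (σ : GQ) (n : ℕ) :
    toZModPow n ((tateGaloisRep W' cb).trace σ) =
      WeierstrassCurve.Affine.Point.galoisTrace (K := AlgebraicClosure ℚ) ℚ W' (p ^ n) σ :=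
  (cb.trace_level n _ _ (fun _ => rfl)).symm

/-- if `σ` has characteristic polynomial `Q mod p^n` on every `E[p^n]`, then `ρ σ` has
characteristic polynomial `Q` -/
theorem charpoly_tate_eq_of_level (σ : GQ) (Q : ℤ_[p][X])
    (h : ∀ n : ℕ,
      haveI := free_torsion_pow W' p n
      haveI := finite_torsion_pow W' p n
      LinearMap.charpoly
        (WeierstrassCurve.Affine.Point.galoisRepModuleEnd (K := AlgebraicClosure ℚ) ℚ W'
          (p ^ n) σ) = Q.map (toZModPow n)) :
    LinearMap.charpoly ((tateGaloisRep W' cb).ρ σ) = Q := by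
  apply poly_eq_of_map_toZModPow
  intro n
  have := free_torsion_pow W' p n
  have := finite_torsion_pow W' p n
  rw [charpoly_tate_map W' cb σ n]
  exact h n

/-- the determinant of `ρ σ` is congruent to `a` mod `p^n` if the determinant of `σ` on
`E[p^n]` is `a` -/
theorem det_tate_sub_mem_of_level (σ : GQ) (n : ℕ) (a : ℤ_[p])
    (h : LinearMap.det
        (WeierstrassCurve.Affine.Point.galoisRepModuleEnd (K := AlgebraicClosure ℚ) ℚ W'
          (p ^ n) σ) = toZModPow n a) :
    LinearMap.det ((tateGaloisRep W' cb).ρ σ) - a ∈ Ideal.span {((p ^ n : ℕ) : ℤ_[p])} := by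
  rw [Nat.cast_pow, ← ker_toZModPow, RingHom.mem_ker, map_sub, det_tate_map, h, sub_self]

/-- `DetIsCyclotomic` from the finite levels -/
theorem detIsCyclotomic_of_level
    (h : ∀ (n : ℕ) (σ : GQ) (a : ℕ),
      (∀ μ : AlgebraicClosure ℚ, μ ^ p ^ n = 1 → σ μ = μ ^ a) →
      LinearMap.det
        (WeierstrassCurve.Affine.Point.galoisRepModuleEnd (K := AlgebraicClosure ℚ) ℚ W'
          (p ^ n) σ) = (a : ZMod (p ^ n))) :
    (tateGaloisRep W' cb).DetIsCyclotomic p := by
  refine ⟨?_, fun n σ a ha => ?_⟩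
  · rw [maximalIdeal_eq_span_p]
    exact Ideal.mem_span_singleton_self _
  · apply det_tate_sub_mem_of_level
    rw [h n σ a ha, map_natCast]

/-- `IsUnipotentOnInertiaAt` from the finite levels -/
theorem isUnipotentOnInertiaAt_of_level (q : ℕ)
    (h : ∀ P : ValuationSubring (AlgebraicClosure ℚ), P.LiesOverPrime q →
      ∀ σ ∈ P.inertiaSubgroupIn ℚ, ∀ n : ℕ,
        haveI := free_torsion_pow W' p n
        haveI := finite_torsion_pow W' p n
        LinearMap.charpoly
          (WeierstrassCurve.Affine.Point.galoisRepModuleEnd (K := AlgebraicClosure ℚ) ℚ W'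
            (p ^ n) σ) = (X - 1) ^ 2) :
    (tateGaloisRep W' cb).IsUnipotentOnInertiaAt q := by
  intro P hP σ hσ
  apply charpoly_tate_eq_of_level
  intro n
  have := free_torsion_pow W' p n
  have := finite_torsion_pow W' p n
  rw [h P hP σ hσ n]
  simp

/-- charpoly of Frobenius from the finite levels, in the form of `CurveRep.charpoly_frob` -/
theorem charpoly_tate_eq_quadratic_of_level (σ : GQ) (a b : ℤ)
    (h : ∀ n : ℕ,
      haveI := free_torsion_pow W' p n
      haveI := finite_torsion_pow W' p n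
      LinearMap.charpoly
        (WeierstrassCurve.Affine.Point.galoisRepModuleEnd (K := AlgebraicClosure ℚ) ℚ W'
          (p ^ n) σ) = X ^ 2 - C ((a : ℤ) : ZMod (p ^ n)) * X + C ((b : ℤ) : ZMod (p ^ n))) :
    LinearMap.charpoly ((tateGaloisRep W' cb).ρ σ)
      = X ^ 2 - C ((a : ℤ) : ℤ_[p]) * X + C ((b : ℤ) : ℤ_[p]) := by
  apply charpoly_tate_eq_of_level
  intro n
  have := free_torsion_pow W' p n
  have := finite_torsion_pow W' p n
  rw [h n]
  simp

end bridge

end Fermat.Agent.S59.H127
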