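import Fermat.Agent.S59.Arch.Spec
import Fermat.Agent.S19.Defs
import Fermat.Agent.S59.H127.BridgeE

/-!
# Row S59, layer E — FINITE-LEVEL INPUT SHAPES for the assembly of `Arch.CurveRep`

`CR-ASM` (helper127) assembles `Fermat.Agent.S59.Arch.CurveRep p W 𝒪` from the following
statements about the torsion points of `W` over `ℚ̄` (definitions only in this file).
`Pts W` is the group `E(ℚ̄)` of the Prelude (`(W.map (Int.castRingHom ℚ))⁄(AlgebraicClosure ℚ)`),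
with the Prelude's Galois action.

* `FrobRelInput p W` : the Frobenius relation `σ² - a_ℓ σ + ℓ = 0` on `E[p^∞]` for Frobenius
  elements `σ` at good `ℓ ≠ p`  (Lib/Frob);
* `DetInput p W`     : `det (σ | E[p^n]) = a` whenever `σ = (·)^a` on `μ_{p^n}`  (E3);
* `UnramInput p W`   : inertia at good `ℓ ≠ p` acts trivially on `E[p^∞]`  (E4, Lib/Red);
* `UnipInput p W`    : `(σ - 1)² = 0` on `E[p^∞]` for `σ` in inertia at bad `ℓ ≠ p`  (E5 / CR-I);
* `FlatInput p W`    : if `W` is good at `p`, every `E[p^k]` has a Hopf model over `ℤ_(p)`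
  (CR-FLAT, via A3);
* `OrdInput p W`     : if `W` is bad at `p`, the Tate representation is strictly ordinary (CR-ORD).
-/

set_option autoImplicit false

open WeierstrassCurve WeierstrassCurve.Affine
open scoped WeierstrassCurve.Affine

namespace Fermat.Agent.S59.H127

/-- the curve over `ℚ` -/
abbrev WQ (W : WeierstrassCurve ℤ) : WeierstrassCurve.Affine ℚ := W.map (Int.castRingHom ℚ)

/-- the group `E(ℚ̄)` -/
abbrev Pts (W : WeierstrassCurve ℤ) : Type := ((WQ W)⁄(AlgebraicClosure ℚ)).Point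

/-- `ℚ̄` -/
abbrev Qb : Type := AlgebraicClosure ℚ

/-- the base change of `W` to `ℚ̄` is elliptic if `Δ ≠ 0` -/
theorem isElliptic_of_Δ_ne_zero (W : WeierstrassCurve ℤ) (hΔ : W.Δ ≠ 0) :
    ((WQ W)⁄(AlgebraicClosure ℚ)).IsElliptic := by
  refine ⟨?_⟩
  rw [isUnit_iff_ne_zero]
  show ((W.map (Int.castRingHom ℚ)).map (algebraMap ℚ (AlgebraicClosure ℚ))).Δ ≠ 0
  rw [WeierstrassCurve.map_Δ, WeierstrassCurve.map_Δ]
  intro h
  have h1 := (algebraMap ℚ (AlgebraicClosure ℚ)).injective (h.trans (map_zero _).symm)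
  exact hΔ (Int.cast_injective (h1.trans Int.cast_zero.symm))

variable (p : ℕ) (W : WeierstrassCurve ℤ)

/-- **INPUT (Frobenius relation)** -/
def FrobRelInput : Prop :=
  ∀ ℓ : ℕ, ℓ.Prime → W.IsGoodPrimeFor ℓ → ℓ ≠ p →
    ∀ A : ValuationSubring Qb, A.LiesOverPrime ℓ → ∀ σ : GQ, A.IsFrobeniusAt σ ℓ →
      ∀ (n : ℕ) (x : Pts W), p ^ n • x = 0 →
        σ • σ • x - (W.apOfModel ℓ : ℤ) • σ • x + (ℓ : ℤ) • x = 0

/-- **INPUT (determinant at finite level)** -/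
def DetInput : Prop :=
  ∀ (n : ℕ) (σ : GQ) (a : ℕ), (∀ μ : Qb, μ ^ p ^ n = 1 → σ μ = μ ^ a) →
    LinearMap.det
      (WeierstrassCurve.Affine.Point.galoisRepModuleEnd (K := AlgebraicClosure ℚ) ℚ (WQ W)
        (p ^ n) σ) = (a : ZMod (p ^ n))

/-- **INPUT (unramified at the good primes)** -/
def UnramInput : Prop :=
  ∀ ℓ : ℕ, ℓ.Prime → W.IsGoodPrimeFor ℓ → ℓ ≠ p →
    ∀ A : ValuationSubring Qb, A.LiesOverPrime ℓ → ∀ σ ∈ A.inertiaSubgroupIn ℚ,
      ∀ (n : ℕ) (x : Pts W), p ^ n • x = 0 → σ • x = x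

/-- **INPUT (unipotent inertia at the bad primes)** -/
def UnipInput : Prop :=
  ∀ ℓ : ℕ, ℓ.Prime → ¬ W.IsGoodPrimeFor ℓ → ℓ ≠ p →
    ∀ A : ValuationSubring Qb, A.LiesOverPrime ℓ → ∀ σ ∈ A.inertiaSubgroupIn ℚ,
      ∀ (n : ℕ) (x : Pts W), p ^ n • x = 0 → σ • σ • x - (2 : ℤ) • σ • x + (1 : ℤ) • x = 0

/-- **INPUT (finite flat models at `p`)** -/
def FlatInput : Prop :=
  W.IsGoodPrimeFor p → ∀ k : ℕ,
    Fermat.Agent.S19.HopfModel p
      (Submodule.torsionBy ℤ (Pts W) ((p ^ k : ℕ) : ℤ))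
      (fun σ x => σ • x)

/-- **INPUT (ordinary at `p`)**, for the Tate representation in any coordinates -/
def OrdInput [Fact p.Prime] : Prop :=
  ¬ W.IsGoodPrimeFor p → ∀ (hE : ((WQ W)⁄(AlgebraicClosure ℚ)).IsElliptic)
    (cb : CompatBasis (Pts W) p 2),
    (@tateGaloisRep (WQ W) hE p _ cb).IsStrictOrdinaryAt p

end Fermat.Agent.S59.H127
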