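import Fermat.Agent.S59.H127.Inputs
import Fermat.Agent.S59.H127.LinAlg2
import Fermat.Agent.S30.H870.Cyclo

/-!
# Row S59, layer E — the fields of `CurveRep` over `ℤ_p` from the finite-level inputs

For `ρ = tateGaloisRep (WQ W) cb`:

* `detIsCyclotomic_of_input`      : `DetInput ⟹ ρ.DetIsCyclotomic p`;
* `det_frob_of_detIsCyclotomic`   : `det ρ(Frob_ℓ) = ℓ`;
* `charpoly_frob_of_inputs`       : `FrobRelInput + DetInput ⟹ charpoly ρ(Frob_ℓ) = X² - a_ℓ X + ℓ`;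
* `isUnramifiedAt_of_input`       : `UnramInput ⟹ ρ.IsUnramifiedAt ℓ`;
* `isUnipotentOnInertiaAt_of_input` : `UnipInput ⟹ ρ.IsUnipotentOnInertiaAt ℓ`.
-/

set_option autoImplicit false

open PadicInt Polynomial WeierstrassCurve WeierstrassCurve.Affine
open scoped WeierstrassCurve.Affine

namespace Fermat.Agent.S59.H127

variable {p : ℕ} [hp : Fact p.Prime] (W : WeierstrassCurve ℤ)
  [hE : ((WQ W)⁄(AlgebraicClosure ℚ)).IsElliptic]
  (cb : CompatBasis (Pts W) p 2)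

/-- an element of `ℤ_p` divisible by all powers of `p` is zero -/
lemma eq_zero_of_forall_mem_span {z : ℤ_[p]}
    (h : ∀ n : ℕ, z ∈ Ideal.span {((p ^ n : ℕ) : ℤ_[p])}) : z = 0 := by
  apply ext_of_toZModPow.mp
  intro n
  have := h n
  rw [Nat.cast_pow, ← ker_toZModPow, RingHom.mem_ker] at this
  rw [this, map_zero]

theorem detIsCyclotomic_of_input (hdet : DetInput p W) :
    (tateGaloisRep (WQ W) cb).DetIsCyclotomic p :=
  detIsCyclotomic_of_level (WQ W) cb hdet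

/-- the determinant of a Frobenius element at `ℓ ≠ p` is `ℓ` -/
theorem det_frob_of_detIsCyclotomic {ρ : GaloisRepAdic ℤ_[p]} (hdet : ρ.DetIsCyclotomic p)
    {ℓ : ℕ} (hℓ : ℓ.Prime) (hℓp : ℓ ≠ p) (A : ValuationSubring Qb) (hA : A.LiesOverPrime ℓ)
    (σ : GQ) (hσ : A.IsFrobeniusAt σ ℓ) :
    LinearMap.det (ρ.ρ σ) = (ℓ : ℤ_[p]) := by
  rw [← sub_eq_zero]
  apply eq_zero_of_forall_mem_span
  intro n
  exact hdet.2 n σ ℓ fun μ hμ =>
    Fermat.Agent.S30.H870.frob_root_pow_eq p hℓ hℓp A hA σ hσ hμ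

/-- **`CurveRep.charpoly_frob` over `ℤ_p`** -/
theorem charpoly_frob_of_inputs (hfrob : FrobRelInput p W) (hdet : DetInput p W)
    (ℓ : ℕ) (hℓ : ℓ.Prime) (hgood : W.IsGoodPrimeFor ℓ) (hℓp : ℓ ≠ p)
    (A : ValuationSubring Qb) (hA : A.LiesOverPrime ℓ) (σ : GQ) (hσ : A.IsFrobeniusAt σ ℓ) :
    LinearMap.charpoly ((tateGaloisRep (WQ W) cb).ρ σ)
      = X ^ 2 - C ((W.apOfModel ℓ : ℤ) : ℤ_[p]) * X + C ((ℓ : ℤ_[p])) := by
  have hrel := tateGaloisRep_quadratic (WQ W) cb σ (W.apOfModel ℓ) (ℓ : ℤ)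
    (hfrob ℓ hℓ hgood hℓp A hA σ hσ)
  have hd := det_frob_of_detIsCyclotomic (detIsCyclotomic_of_input W cb hdet) hℓ hℓp A hA σ hσ
  have hℓ0 : ((ℓ : ℤ) : ℤ_[p]) ≠ 0 := by
    rw [Int.cast_natCast]
    exact Nat.cast_ne_zero.mpr hℓ.ne_zero
  have := charpoly_eq_of_quadratic_of_det (tateGaloisRep (WQ W) cb).finrank_eq
    ((tateGaloisRep (WQ W) cb).ρ σ) ((W.apOfModel ℓ : ℤ) : ℤ_[p]) ((ℓ : ℤ) : ℤ_[p]) hℓ0 hrel
    (by rw [hd, Int.cast_natCast])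
  rw [this, Int.cast_natCast]

/-- **`CurveRep.unram` over `ℤ_p`** -/
theorem isUnramifiedAt_of_input (hunr : UnramInput p W)
    (ℓ : ℕ) (hℓ : ℓ.Prime) (hgood : W.IsGoodPrimeFor ℓ) (hℓp : ℓ ≠ p) :
    (tateGaloisRep (WQ W) cb).IsUnramifiedAt ℓ :=
  tateGaloisRep_isUnramifiedAt (WQ W) cb ℓ (hunr ℓ hℓ hgood hℓp)

/-- **`CurveRep.unip` over `ℤ_p`** -/
theorem isUnipotentOnInertiaAt_of_input (hunip : UnipInput p W)
    (ℓ : ℕ) (hℓ : ℓ.Prime) (hbad : ¬ W.IsGoodPrimeFor ℓ) (hℓp : ℓ ≠ p) :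
    (tateGaloisRep (WQ W) cb).IsUnipotentOnInertiaAt ℓ := by
  intro P hP σ hσ
  have hrel := tateGaloisRep_quadratic (WQ W) cb σ 2 1 (hunip ℓ hℓ hbad hℓp P hP σ hσ)
  apply charpoly_eq_of_sub_one_sq (tateGaloisRep (WQ W) cb).finrank_eq
  rw [Int.cast_one, one_smul, Int.cast_ofNat] at hrel
  exact hrel

end Fermat.Agent.S59.H127
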