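import Fermat.Agent.S59.H127.CurveRepOrd
import Fermat.Agent.S59.H382.OrderDatum
import Fermat.Agent.S59.H659.FlatClosed
import Fermat.Agent.S59.H779.FlatLevels

/-!
# Row S59, layer E — CR-FLAT assembly and `Arch.CurveRepStatement`

* `levelToTor` : the Galois-equivariant additive embedding `T_p E ⧸ p^k T_p E ↪ E[p^k]`
  (`T_p E = tateGaloisRep`, via `Φ`);
* `flatLevel_tate_of_hopfModel` : a Hopf model of `E[p^k]` gives `FlatLevel` of the Tate module at
  the ideal `(p^k)`;
* `isFlatAt_tate_baseChange` : flatness of every base change of the Tate module, from Hopf models of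
  all `E[p^k]`;
* `flatFinalInput : FlatFinalInput` (Hopf models: `H382.hopfModel_torsion_pow`, closure:
  `H659.hopfSubquot_closed`, `hopfProd_closed`, ascent: `H779.FlatLevel.baseChange`);
* **`curveRepStatement : Arch.CurveRepStatement`**.
-/

set_option autoImplicit false

open PadicInt WeierstrassCurve WeierstrassCurve.Affine
open scoped WeierstrassCurve.Affine

namespace Fermat.Agent.S59.H127

open Fermat.Agent.S59.H779 (Lev FlatLevel HopfSubquotSpec HopfProdSpec)
open Fermat.Agent.S19 (HopfModel)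

section level

variable (W' : WeierstrassCurve.Affine ℚ) [hE : (W'⁄(AlgebraicClosure ℚ)).IsElliptic]
variable {p : ℕ} [hp : Fact p.Prime] (cb : CompatBasis (W'⁄(AlgebraicClosure ℚ)).Point p 2)
variable (k : ℕ)

/-- the projection `T_p E → E[p^k]` in coordinates -/
noncomputable def tateToLevel : (Fin 2 → ℤ_[p]) →+
    Submodule.torsionBy ℤ (W'⁄(AlgebraicClosure ℚ)).Point ((p ^ k : ℕ) : ℤ) where
  toFun a := ⟨cb.Φ a k, mem_torsionBy_natCast_iff.mpr (cb.Φ_torsion a k)⟩
  map_zero' := Subtype.ext (cb.Φ_zero_left k)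
  map_add' a b := Subtype.ext (cb.Φ_add a b k)

omit hE in
lemma coe_tateToLevel (a : Fin 2 → ℤ_[p]) :
    ((tateToLevel W' cb k a : Submodule.torsionBy ℤ (W'⁄(AlgebraicClosure ℚ)).Point
      ((p ^ k : ℕ) : ℤ)) : (W'⁄(AlgebraicClosure ℚ)).Point) = cb.Φ a k := rfl

omit hE in
lemma tateToLevel_eq_zero_iff (a : Fin 2 → ℤ_[p]) :
    tateToLevel W' cb k a = 0 ↔
      a ∈ (Ideal.span {(p : ℤ_[p]) ^ k}) • (⊤ : Submodule ℤ_[p] (Fin 2 → ℤ_[p])) := by
  rw [Fermat.Agent.S53.mem_smul_top_pi_iff, ← cb.Φ_eq_zero_iff a k]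
  constructor
  · intro h
    exact congrArg Subtype.val h
  · intro h
    exact Subtype.ext h

/-- the embedding `T_p E ⧸ p^k T_p E ↪ E[p^k]` -/
noncomputable def levelToTor :
    Lev (tateGaloisRep W' cb) (Ideal.span {(p : ℤ_[p]) ^ k}) →+
      Submodule.torsionBy ℤ (W'⁄(AlgebraicClosure ℚ)).Point ((p ^ k : ℕ) : ℤ) :=
  QuotientAddGroup.lift
    ((Ideal.span {(p : ℤ_[p]) ^ k}) • (⊤ : Submodule ℤ_[p] (Fin 2 → ℤ_[p]))).toAddSubgroup
    (tateToLevel W' cb k)
    (fun a ha => (tateToLevel_eq_zero_iff W' cb k a).mpr ha)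

lemma levelToTor_mk (a : (tateGaloisRep W' cb).V) :
    levelToTor W' cb k
      (Submodule.Quotient.mk a : Lev (tateGaloisRep W' cb) (Ideal.span {(p : ℤ_[p]) ^ k}))
        = tateToLevel W' cb k a := rfl

lemma levelToTor_injective : Function.Injective (levelToTor W' cb k) := by
  intro x y hxy
  obtain ⟨a, rfl⟩ := Submodule.Quotient.mk_surjective _ x
  obtain ⟨b, rfl⟩ := Submodule.Quotient.mk_surjective _ y
  let a' : Fin 2 → ℤ_[p] := a
  let b' : Fin 2 → ℤ_[p] := b
  have h1 : tateToLevel W' cb k a' = tateToLevel W' cb k b' := hxy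
  have h2 : tateToLevel W' cb k (a' - b') = 0 := by rw [map_sub, h1, sub_self]
  have h3 := (tateToLevel_eq_zero_iff W' cb k (a' - b')).mp h2
  exact (Submodule.Quotient.eq _).mpr h3

lemma levelToTor_levelAction (σ : GQ)
    (x : Lev (tateGaloisRep W' cb) (Ideal.span {(p : ℤ_[p]) ^ k})) :
    levelToTor W' cb k ((tateGaloisRep W' cb).levelAction (Ideal.span {(p : ℤ_[p]) ^ k}) σ x)
      = σ • levelToTor W' cb k x := by
  obtain ⟨a, rfl⟩ := Submodule.Quotient.mk_surjective _ x
  have h1 : (tateGaloisRep W' cb).levelAction (Ideal.span {(p : ℤ_[p]) ^ k}) σ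
      (Submodule.Quotient.mk a) = Submodule.Quotient.mk ((tateGaloisRep W' cb).ρ σ a) := rfl
  rw [h1]
  let a' : Fin 2 → ℤ_[p] := a
  show tateToLevel W' cb k ((tateGaloisRep W' cb).ρ σ a') = σ • tateToLevel W' cb k a'
  apply Subtype.ext
  exact Φ_tateGaloisRep W' cb σ a' k

variable {k}

/-- a Hopf model of `E[p^k]` gives flatness of the Tate module at the level `(p^k)` -/
theorem flatLevel_tate_of_hopfModel (hSub : HopfSubquotSpec p)
    (h : HopfModel p (Submodule.torsionBy ℤ (W'⁄(AlgebraicClosure ℚ)).Point ((p ^ k : ℕ) : ℤ))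
      (fun σ m => σ • m)) :
    FlatLevel p (tateGaloisRep W' cb) (Ideal.span {(p : ℤ_[p]) ^ k}) :=
  Fermat.Agent.S59.H779.HopfModel.sub hSub (levelToTor W' cb k) (levelToTor_injective W' cb k)
    (fun σ x => levelToTor_levelAction W' cb k σ x) h

/-- flatness of the Tate module at every ideal of finite index -/
theorem flatLevel_tate (hSub : HopfSubquotSpec p)
    (h : ∀ k : ℕ, HopfModel p
      (Submodule.torsionBy ℤ (W'⁄(AlgebraicClosure ℚ)).Point ((p ^ k : ℕ) : ℤ))
      (fun σ m => σ • m))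
    (I : Ideal ℤ_[p]) (hI : Finite (ℤ_[p] ⧸ I)) : FlatLevel p (tateGaloisRep W' cb) I := by
  have hI0 : I ≠ ⊥ := by
    rintro rfl
    have e : ℤ_[p] ≃ ℤ_[p] ⧸ (⊥ : Ideal ℤ_[p]) := (RingEquiv.quotientBot ℤ_[p]).symm.toEquiv
    have hfin : Finite ℤ_[p] := Finite.of_equiv _ e.symm
    exact not_finite ℤ_[p]
  obtain ⟨n, rfl⟩ := PadicInt.ideal_eq_span_pow_p hI0
  exact flatLevel_tate_of_hopfModel W' cb hSub (h n)

/-- **flatness of every base change of the Tate module**, from Hopf models of all `E[p^k]` -/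
theorem isFlatAt_tate_baseChange (hSub : HopfSubquotSpec p) (hProd : HopfProdSpec p)
    (h : ∀ k : ℕ, HopfModel p
      (Submodule.torsionBy ℤ (W'⁄(AlgebraicClosure ℚ)).Point ((p ^ k : ℕ) : ℤ))
      (fun σ m => σ • m))
    {B : Type} [CommRing B] [IsLocalRing B] [Finite (IsLocalRing.ResidueField B)]
    (φ : ℤ_[p] →+* B) (hφ : IsLocalHom φ) :
    ((tateGaloisRep W' cb).baseChangeAlong φ hφ).IsFlatAt p := by
  refine ⟨inferInstance, fun J hJ => ?_⟩
  have hfin : Finite (ℤ_[p] ⧸ J.comap φ) :=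
    Finite.of_injective (Ideal.quotientMap J φ le_rfl)
      (Ideal.quotientMap_injective' le_rfl)
  exact Fermat.Agent.S59.H779.FlatLevel.baseChange hSub hProd φ hφ
    (flatLevel_tate W' cb hSub h (J.comap φ) hfin)

end level

/-- **CR-FLAT, final form.** -/
theorem flatFinalInput : FlatFinalInput := by
  intro p hp hp2 W hΔ hW _ hgood hE cb 𝒪 _ _ _ _ _ _ φ hφ
  exact isFlatAt_tate_baseChange (WQ W) cb (Fermat.Agent.S59.H659.hopfSubquot_closed p)
    (Fermat.Agent.S59.H659.hopfProd_closed p)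
    (fun k => Fermat.Agent.S59.H382.hopfModel_torsion_pow W p hp2 hgood k) φ hφ

/-- **Layer E of S59: the Tate module of a semistable curve with all its local properties,
over every complete DVR `𝒪`.** -/
theorem curveRepStatement : Fermat.Agent.S59.Arch.CurveRepStatement :=
  curveRepStatement_of_flat flatFinalInput

end Fermat.Agent.S59.H127
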