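import Fermat.Agent.S59.H127.BridgeGen
import Fermat.Agent.S59.H127.BridgeE
import Fermat.Agent.S53.Dict

/-!
# Row S59, layer E (CR-ASM) — the residual representation of the Tate module

For `W' : Affine ℚ` elliptic, `ρ = tateGaloisRep W' cb : GaloisRepAdic ℤ_[p]`, ANY local ring `B`
with a local homomorphism `φ : ℤ_[p] →+* B` and ANY `ι : ZMod p →+* ResidueField B`:

  `(ρ.baseChangeAlong φ hφ).residual ≅ (W'.residualGaloisRepOf p hcard hker).baseChangeAlong ι`

(`residual_tate_baseChange`), i.e. the field `residual` of `Arch.CurveRep` for the base change of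
the Tate module to `B`.  Everything goes through the matrix dictionary `S53/Dict.lean`.
-/

set_option autoImplicit false

open PadicInt WeierstrassCurve WeierstrassCurve.Affine
open scoped WeierstrassCurve.Affine

namespace Fermat.Agent.S59.H127

open Fermat.Agent.S53 (M2 MatCont toAdic toRes mapRep)

/-- two ring homomorphisms from `ℤ_[p]` to a ring in which `p = 0` agree -/
theorem padicInt_ringHom_ext_of_p_eq_zero {p : ℕ} [Fact p.Prime] {R : Type*} [Ring R]
    (hp0 : (p : R) = 0) (f g : ℤ_[p] →+* R) : f = g := by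
  have key : ∀ (h : ℤ_[p] →+* R) (x : ℤ_[p]), h x = ((x.appr 1 : ℕ) : R) := by
    intro h x
    have := PadicInt.appr_spec 1 x
    rw [Ideal.mem_span_singleton'] at this
    obtain ⟨y, hy⟩ := this
    have hx : x = y * (p : ℤ_[p]) ^ 1 + ((x.appr 1 : ℕ) : ℤ_[p]) := by rw [hy]; ring
    conv_lhs => rw [hx]
    rw [map_add, map_mul, map_pow, map_natCast, map_natCast, hp0, pow_one, mul_zero, zero_add]
  ext x
  rw [key f, key g]

variable (W' : WeierstrassCurve.Affine ℚ) [hE : (W'⁄(AlgebraicClosure ℚ)).IsElliptic]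
variable {p : ℕ} [hp : Fact p.Prime] (cb : CompatBasis (W'⁄(AlgebraicClosure ℚ)).Point p 2)

/-- the Tate representation in matrix form -/
noncomputable def tateMat : GQ →* M2 ℤ_[p] :=
  (LinearMap.toMatrixAlgEquiv' (R := ℤ_[p]) (n := Fin 2)).toAlgHom.toRingHom.toMonoidHom.comp
    (tateGaloisRep W' cb).ρ

lemma tateMat_apply (σ : GQ) :
    tateMat W' cb σ = LinearMap.toMatrix' ((tateGaloisRep W' cb).ρ σ) := rfl

lemma matCont_tateMat : MatCont (tateMat W' cb) := by
  intro n
  obtain ⟨L, hL, h⟩ := (tateGaloisRep W' cb).isAdicContinuous n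
  refine ⟨L, hL, fun σ hσ i j => ?_⟩
  let f : (Fin 2 → ℤ_[p]) →ₗ[ℤ_[p]] (Fin 2 → ℤ_[p]) := (tateGaloisRep W' cb).ρ σ
  have h1 : (tateMat W' cb σ - 1) i j
      = (f (Pi.single j (1 : ℤ_[p])) - (Pi.single j (1 : ℤ_[p]) : Fin 2 → ℤ_[p])) i := by
    have e1 : tateMat W' cb σ = LinearMap.toMatrix' f := rfl
    rw [e1, Matrix.sub_apply, LinearMap.toMatrix'_apply, Matrix.one_apply,
      Pi.sub_apply, Pi.single_apply]
  rw [h1]
  have h2 : f (Pi.single j (1 : ℤ_[p])) - (Pi.single j (1 : ℤ_[p]) : Fin 2 → ℤ_[p])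
      ∈ (IsLocalRing.maximalIdeal ℤ_[p] ^ n) • (⊤ : Submodule ℤ_[p] (Fin 2 → ℤ_[p])) :=
    h σ hσ (Pi.single j (1 : ℤ_[p]))
  exact (Fermat.Agent.S53.mem_smul_top_pi_iff _ _).mp h2 i

/-- the Tate representation is its matrix form -/
theorem tate_isEquiv_toAdic :
    (tateGaloisRep W' cb).IsEquiv (toAdic (tateMat W' cb) (matCont_tateMat W' cb)) :=
  ⟨⟨LinearEquiv.refl ℤ_[p] (Fin 2 → ℤ_[p]), fun σ x => by
    let f : (Fin 2 → ℤ_[p]) →ₗ[ℤ_[p]] (Fin 2 → ℤ_[p]) := (tateGaloisRep W' cb).ρ σ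
    show f x = (LinearMap.toMatrix' f).mulVec x
    exact (LinearMap.toMatrix'_mulVec f x).symm⟩⟩

/-- the matrix of `σ` on `E[p]` in the level-one basis is the reduction of the Tate matrix -/
theorem toMatrix_residual (π : ℤ_[p] →+* ZMod p) (σ : GQ) :
    LinearMap.toMatrix (cb.levelBasisOf (m := p) (n := 1) (pow_one p).symm)
        (cb.levelBasisOf (m := p) (n := 1) (pow_one p).symm)
        (WeierstrassCurve.Affine.Point.galoisRepModuleEnd (K := AlgebraicClosure ℚ) ℚ W' p σ)
      = mapRep π (tateMat W' cb) σ :=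
  cb.toMatrix_levelOf (pow_one p).symm π _ _ (fun _ => rfl)

lemma factors_mapRep_tateMat (π : ℤ_[p] →+* ZMod p)
    (hker : GaloisFactorsThroughFiniteLevel
      (WeierstrassCurve.Affine.Point.galoisRepModuleEnd (K := AlgebraicClosure ℚ) ℚ W' p)) :
    GaloisFactorsThroughFiniteLevel (mapRep π (tateMat W' cb)) := by
  obtain ⟨L, hL, h⟩ := hker
  refine ⟨L, hL, fun σ hσ => ?_⟩
  rw [← toMatrix_residual W' cb π σ, h σ hσ]
  exact LinearMap.toMatrix_one _

/-- `E[p]` in matrix form -/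
theorem residualGaloisRepOf_isEquiv_toRes (π : ℤ_[p] →+* ZMod p)
    (hcard : Nat.card (Submodule.torsionBy ℤ (W'⁄(AlgebraicClosure ℚ)).Point p) = p ^ 2)
    (hker : GaloisFactorsThroughFiniteLevel
      (WeierstrassCurve.Affine.Point.galoisRepModuleEnd (K := AlgebraicClosure ℚ) ℚ W' p)) :
    (WeierstrassCurve.residualGaloisRepOf W' p hcard hker).IsEquiv
      (toRes (mapRep π (tateMat W' cb)) (factors_mapRep_tateMat W' cb π hker)) := by
  refine ⟨⟨(cb.levelBasisOf (m := p) (n := 1) (pow_one p).symm).equivFun, fun σ x => ?_⟩⟩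
  let b := cb.levelBasisOf (m := p) (n := 1) (pow_one p).symm
  let g : Module.End (ZMod p) (Submodule.torsionBy ℤ (W'⁄(AlgebraicClosure ℚ)).Point p) :=
    WeierstrassCurve.Affine.Point.galoisRepModuleEnd (K := AlgebraicClosure ℚ) ℚ W' p σ
  let x' : Submodule.torsionBy ℤ (W'⁄(AlgebraicClosure ℚ)).Point p := x
  show b.equivFun (g x') = (mapRep π (tateMat W' cb) σ).mulVec (b.equivFun x')
  rw [← toMatrix_residual W' cb π σ]
  exact (LinearMap.toMatrix_mulVec_repr b b g x').symm

omit hE hp in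
lemma toRes_isEquiv_of_eq {k : Type} [Field k] {r r' : GQ →* M2 k} (h : r = r')
    (hr : GaloisFactorsThroughFiniteLevel r) (hr' : GaloisFactorsThroughFiniteLevel r') :
    (toRes r hr).IsEquiv (toRes r' hr') := by
  subst h
  exact ⟨ResidualGaloisRep.Equiv.refl _⟩

/-- **the field `residual` of `CurveRep`**, for the base change of the Tate module along any
local homomorphism `φ : ℤ_[p] →+* B` -/
theorem residual_tate_baseChange {B : Type} [CommRing B] [IsLocalRing B]
    (φ : ℤ_[p] →+* B) (hφ : IsLocalHom φ) (ι : ZMod p →+* IsLocalRing.ResidueField B)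
    (hcard : Nat.card (Submodule.torsionBy ℤ (W'⁄(AlgebraicClosure ℚ)).Point p) = p ^ 2)
    (hker : GaloisFactorsThroughFiniteLevel
      (WeierstrassCurve.Affine.Point.galoisRepModuleEnd (K := AlgebraicClosure ℚ) ℚ W' p)) :
    ((tateGaloisRep W' cb).baseChangeAlong φ hφ).residual.IsEquiv
      ((WeierstrassCurve.residualGaloisRepOf W' p hcard hker).baseChangeAlong ι) := by
  have hp0 : (p : IsLocalRing.ResidueField B) = 0 := by
    have h1 : (p : ℤ_[p]) ∈ IsLocalRing.maximalIdeal ℤ_[p] := by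
      rw [PadicInt.maximalIdeal_eq_span_p]
      exact Ideal.mem_span_singleton_self _
    have h2 : φ (p : ℤ_[p]) ∈ IsLocalRing.maximalIdeal B := by
      have := hφ
      exact map_nonunit φ _ h1
    rw [← IsLocalRing.residue_eq_zero_iff, map_natCast, map_natCast] at h2
    exact h2
  have hhom : (IsLocalRing.residue B).comp φ = ι.comp (PadicInt.toZMod (p := p)) :=
    padicInt_ringHom_ext_of_p_eq_zero hp0 _ _
  -- the adic side
  obtain ⟨e0⟩ := tate_isEquiv_toAdic W' cb
  obtain ⟨e1⟩ := Fermat.Agent.S53.baseChangeAlong_toAdic φ hφ (tateMat W' cb)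
    (matCont_tateMat W' cb)
  obtain ⟨e2⟩ := Fermat.Agent.S53.residual_toAdic (mapRep φ (tateMat W' cb))
    ((matCont_tateMat W' cb).map φ hφ)
  have hL : ((tateGaloisRep W' cb).baseChangeAlong φ hφ).residual.IsEquiv
      (toRes (mapRep (IsLocalRing.residue B) (mapRep φ (tateMat W' cb)))
        ((matCont_tateMat W' cb).map φ hφ).factors_residue) :=
    ⟨((e0.baseChangeAlong φ hφ).trans e1).residual.trans e2⟩
  -- the residual side
  obtain ⟨e3⟩ := residualGaloisRepOf_isEquiv_toRes W' cb PadicInt.toZMod hcard hker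
  obtain ⟨e4⟩ := Fermat.Agent.S53.baseChangeAlong_toRes ι (mapRep PadicInt.toZMod (tateMat W' cb))
    (factors_mapRep_tateMat W' cb PadicInt.toZMod hker)
  have hR : ((WeierstrassCurve.residualGaloisRepOf W' p hcard hker).baseChangeAlong ι).IsEquiv
      (toRes (mapRep ι (mapRep PadicInt.toZMod (tateMat W' cb)))
        (Fermat.Agent.S53.factors_mapRep ι
          (factors_mapRep_tateMat W' cb PadicInt.toZMod hker))) :=
    ⟨(e3.baseChangeAlong ι).trans e4⟩
  have heq : mapRep (IsLocalRing.residue B) (mapRep φ (tateMat W' cb))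
      = mapRep ι (mapRep PadicInt.toZMod (tateMat W' cb)) := by
    rw [Fermat.Agent.S53.mapRep_comp, Fermat.Agent.S53.mapRep_comp, hhom]
  obtain ⟨e5⟩ := toRes_isEquiv_of_eq heq
    ((matCont_tateMat W' cb).map φ hφ).factors_residue
    (Fermat.Agent.S53.factors_mapRep ι (factors_mapRep_tateMat W' cb PadicInt.toZMod hker))
  obtain ⟨eL⟩ := hL
  obtain ⟨eR⟩ := hR
  exact ⟨(eL.trans e5).trans eR.symm⟩

end Fermat.Agent.S59.H127
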