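import Fermat.Agent.S59.H127.AsmZp
import Fermat.Agent.S59.H127.Residual
import Fermat.Agent.S56.H966.CondBC
import Fermat.Agent.S59.Arch.Glue
import Fermat.Agent.S59.H667.E23Final
import Fermat.Agent.S59.H899.Unram
import Fermat.Agent.S59.H240.UnipInput
import Fermat.Agent.Lib.Frob23.Main

/-!
# Row S59, layer E — CR-ASM: assembly of `Arch.CurveRep p W 𝒪`

`ρ_𝒪 = (tateGaloisRep (WQ W) cb).baseChangeAlong φ` for the canonical `φ : ℤ_[p] →+* 𝒪`.

* `curveRepOfTate` : the structure `Arch.CurveRep p W 𝒪` from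
  - `DetIsCyclotomic` of the Tate module (H667),
  - `FrobRelInput` (Lib/Frob23), `UnramInput` (H899), `UnipInput` (H240),
  - the two OPEN fields, as hypotheses in their final form:
    `flat` for `ρ_𝒪` and `ord` for the Tate module over `ℤ_[p]`;
* `frobRelInput`, `unramInput` : the inputs from main;
* `FlatFinalInput`, `OrdFinalInput` : the two open inputs as `Prop`s;
* `curveRepStatement_of : FlatFinalInput → OrdFinalInput → Arch.CurveRepStatement`.
-/

set_option autoImplicit false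

open PadicInt Polynomial WeierstrassCurve WeierstrassCurve.Affine
open scoped WeierstrassCurve.Affine

namespace Fermat.Agent.S59.H127

section localHom

variable {p : ℕ} [hp : Fact p.Prime]

/-- every ring homomorphism from `ℤ_[p]` to a local ring with `p` in the maximal ideal is local -/
theorem isLocalHom_of_padicInt {B : Type*} [CommRing B] [IsLocalRing B]
    (hpB : (p : B) ∈ IsLocalRing.maximalIdeal B) (φ : ℤ_[p] →+* B) : IsLocalHom φ := by
  refine ⟨fun a ha => ?_⟩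
  by_contra hna
  have h1 : a ∈ IsLocalRing.maximalIdeal ℤ_[p] := hna
  rw [PadicInt.maximalIdeal_eq_span_p, Ideal.mem_span_singleton'] at h1
  obtain ⟨b, rfl⟩ := h1
  have h2 : φ (b * (p : ℤ_[p])) ∈ IsLocalRing.maximalIdeal B := by
    rw [map_mul, map_natCast]
    exact Ideal.mul_mem_left _ _ hpB
  exact h2 ha

/-- the residue field of a local ring with `p` in the maximal ideal is an `𝔽_p`-algebra -/
noncomputable def zmodToResidueField {B : Type*} [CommRing B] [IsLocalRing B]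
    (hpB : (p : B) ∈ IsLocalRing.maximalIdeal B) : ZMod p →+* IsLocalRing.ResidueField B :=
  haveI := ringChar.charP (IsLocalRing.ResidueField B)
  ZMod.castHom ((ringChar.spec (IsLocalRing.ResidueField B) p).mp (by
    rw [← map_natCast (IsLocalRing.residue B), IsLocalRing.residue_eq_zero_iff]
    exact hpB)) (IsLocalRing.ResidueField B)

end localHom

section assemble

variable (p : ℕ) [hp : Fact p.Prime] (W : WeierstrassCurve ℤ)
  [hE : ((WQ W)⁄(AlgebraicClosure ℚ)).IsElliptic]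
  (cb : CompatBasis (Pts W) p 2)

/-- `charpoly_frob` over `ℤ_[p]` from the Frobenius relation and `DetIsCyclotomic` -/
theorem charpoly_frob_of_det (hfrob : FrobRelInput p W)
    (hdet : (tateGaloisRep (WQ W) cb).DetIsCyclotomic p)
    (ℓ : ℕ) (hℓ : ℓ.Prime) (hgood : W.IsGoodPrimeFor ℓ) (hℓp : ℓ ≠ p)
    (A : ValuationSubring Qb) (hA : A.LiesOverPrime ℓ) (σ : GQ) (hσ : A.IsFrobeniusAt σ ℓ) :
    LinearMap.charpoly ((tateGaloisRep (WQ W) cb).ρ σ)
      = X ^ 2 - C ((W.apOfModel ℓ : ℤ) : ℤ_[p]) * X + C ((ℓ : ℤ_[p])) := by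
  have hrel := tateGaloisRep_quadratic (WQ W) cb σ (W.apOfModel ℓ) (ℓ : ℤ)
    (hfrob ℓ hℓ hgood hℓp A hA σ hσ)
  have hd := det_frob_of_detIsCyclotomic hdet hℓ hℓp A hA σ hσ
  have hℓ0 : ((ℓ : ℤ) : ℤ_[p]) ≠ 0 := by
    rw [Int.cast_natCast]
    exact Nat.cast_ne_zero.mpr hℓ.ne_zero
  have := charpoly_eq_of_quadratic_of_det (tateGaloisRep (WQ W) cb).finrank_eq
    ((tateGaloisRep (WQ W) cb).ρ σ) ((W.apOfModel ℓ : ℤ) : ℤ_[p]) ((ℓ : ℤ) : ℤ_[p]) hℓ0 hrel
    (by rw [hd, Int.cast_natCast])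
  rw [this, Int.cast_natCast]

variable {𝒪 : Type} [CommRing 𝒪] [IsLocalRing 𝒪]

/-- **CR-ASM.**  The structure `Arch.CurveRep p W 𝒪` on the base change of the Tate module along
`φ : ℤ_[p] →+* 𝒪`, from the finite-level inputs. -/
noncomputable def curveRepOfTate (φ : ℤ_[p] →+* 𝒪) (hφ : IsLocalHom φ)
    (ι : ZMod p →+* IsLocalRing.ResidueField 𝒪)
    (hdet : (tateGaloisRep (WQ W) cb).DetIsCyclotomic p)
    (hfrob : FrobRelInput p W) (hunr : UnramInput p W) (hunip : UnipInput p W)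
    (hflat : W.IsGoodPrimeFor p → ((tateGaloisRep (WQ W) cb).baseChangeAlong φ hφ).IsFlatAt p)
    (hord : ¬ W.IsGoodPrimeFor p → (tateGaloisRep (WQ W) cb).IsStrictOrdinaryAt p) :
    Fermat.Agent.S59.Arch.CurveRep p W 𝒪 where
  ρ := (tateGaloisRep (WQ W) cb).baseChangeAlong φ hφ
  hcard := card_torsion_prime (WQ W) p
  hker := galoisFactorsThroughFiniteLevel_torsion (WQ W) p hp.out.one_le
  ι := ι
  residual := residual_tate_baseChange (WQ W) cb φ hφ ι _ _
  charpoly_frob := fun ℓ hℓ hgood hℓp A hA σ hσ => by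
    rw [Fermat.Agent.S59.Arch.charpoly_baseChangeAlong φ hφ,
      charpoly_frob_of_det p W cb hfrob hdet ℓ hℓ hgood hℓp A hA σ hσ]
    rw [Polynomial.map_add, Polynomial.map_sub, Polynomial.map_mul, Polynomial.map_pow,
      Polynomial.map_X, Polynomial.map_C, Polynomial.map_C, map_intCast, map_natCast]
  det := Fermat.Agent.S56.H966.detIsCyclotomic_baseChangeAlong φ hφ hdet
  unram := fun ℓ hℓ hgood hℓp =>
    Fermat.Agent.S56.H966.isUnramifiedAt_baseChangeAlong φ hφ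
      (isUnramifiedAt_of_input W cb hunr ℓ hℓ hgood hℓp)
  unip := fun ℓ hℓ hbad hℓp =>
    Fermat.Agent.S56.H966.isUnipotentOnInertiaAt_baseChangeAlong φ hφ
      (isUnipotentOnInertiaAt_of_input W cb hunip ℓ hℓ hbad hℓp)
  flat := hflat
  ord := fun hbad =>
    Fermat.Agent.S56.H966.isStrictOrdinaryAt_baseChangeAlong φ hφ (hord hbad)

end assemble

section inputs

variable (p : ℕ) (W : WeierstrassCurve ℤ)

/-- `FrobRelInput` from `Lib/Frob23` (all good primes `ℓ ≠ p`, including `2` and `3`) -/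
theorem frobRelInput (hp : p.Prime) : FrobRelInput p W := by
  intro ℓ hℓ hgood hℓp A hA σ hσ n x hx
  have hn : ¬ ℓ ∣ p ^ n := fun h =>
    hℓp ((Nat.prime_dvd_prime_iff_eq hℓ hp).mp (hℓ.dvd_of_dvd_pow h))
  exact Fermat.Agent.Lib.Frob23.frobRelationAll W ℓ hℓ hgood A σ hA hσ (p ^ n)
    (pow_pos hp.pos n) hn x hx

/-- `UnramInput` from H899 -/
theorem unramInput (hp : p.Prime) : UnramInput p W := by
  intro ℓ hℓ hgood hℓp A hA σ hσ n x hx
  have hn : ¬ ℓ ∣ p ^ n := fun h =>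
    hℓp ((Nat.prime_dvd_prime_iff_eq hℓ hp).mp (hℓ.dvd_of_dvd_pow h))
  exact Fermat.Agent.S59.H899.inertia_smul_eq_self_of_good W hℓ hgood hn A hA σ hσ x hx

end inputs

/-- **OPEN INPUT (CR-FLAT), final form**: if `W` has good reduction at `p`, every base change of
the Tate module along a homomorphism to a complete DVR `𝒪` as in `CurveRepStatement` is flat. -/
def FlatFinalInput : Prop :=
  ∀ (p : ℕ) [Fact p.Prime] (_hp2 : p ≠ 2) (W : WeierstrassCurve ℤ) (_hΔ : W.Δ ≠ 0)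
    (_hW : W.IsSemistableModel) (_hirr : W.ModRepIsIrreducible p),
    W.IsGoodPrimeFor p →
    ∀ (hE : ((WQ W)⁄(AlgebraicClosure ℚ)).IsElliptic) (cb : CompatBasis (Pts W) p 2)
      (𝒪 : Type) [CommRing 𝒪] [IsDomain 𝒪] [IsDiscreteValuationRing 𝒪]
      [IsAdicComplete (IsLocalRing.maximalIdeal 𝒪) 𝒪] [Finite (IsLocalRing.ResidueField 𝒪)]
      [CharZero 𝒪] (φ : ℤ_[p] →+* 𝒪) (hφ : IsLocalHom φ),
      ((@tateGaloisRep (WQ W) hE p _ cb).baseChangeAlong φ hφ).IsFlatAt p

/-- **OPEN INPUT (CR-ORD), final form**: if `W` is semistable with bad reduction at `p`, the Tate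
module is strictly ordinary at `p` (the determinant being cyclotomic). -/
def OrdFinalInput : Prop :=
  ∀ (p : ℕ) [Fact p.Prime] (_hp2 : p ≠ 2) (W : WeierstrassCurve ℤ) (_hΔ : W.Δ ≠ 0)
    (_hW : W.IsSemistableModel) (_hirr : W.ModRepIsIrreducible p),
    ¬ W.IsGoodPrimeFor p →
    ∀ (hE : ((WQ W)⁄(AlgebraicClosure ℚ)).IsElliptic) (cb : CompatBasis (Pts W) p 2),
      (@tateGaloisRep (WQ W) hE p _ cb).DetIsCyclotomic p →
      (@tateGaloisRep (WQ W) hE p _ cb).IsStrictOrdinaryAt p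

/-- **Layer E of S59, up to the two open inputs.** -/
theorem curveRepStatement_of (hflat : FlatFinalInput) (hord : OrdFinalInput) :
    Fermat.Agent.S59.Arch.CurveRepStatement := by
  intro p _ hp2 W hΔ hW hirr 𝒪 _ _ _ _ _ _ hp𝒪
  have hp : p.Prime := Fact.out
  have hE : ((WQ W)⁄(AlgebraicClosure ℚ)).IsElliptic := isElliptic_of_Δ_ne_zero W hΔ
  obtain ⟨cb⟩ := nonempty_compatBasis_point ((WQ W)⁄(AlgebraicClosure ℚ)) p
  let φ : ℤ_[p] →+* 𝒪 :=
    Fermat.Agent.S30.H870.padicToComplete p (IsLocalRing.maximalIdeal 𝒪) hp𝒪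
  have hφ : IsLocalHom φ := isLocalHom_of_padicInt hp𝒪 φ
  have hdet : (tateGaloisRep (WQ W) cb).DetIsCyclotomic p :=
    Fermat.Agent.S59.H667.tate_detIsCyclotomic W hΔ p hirr cb
  exact ⟨curveRepOfTate p W cb φ hφ (zmodToResidueField hp𝒪) hdet (frobRelInput p W hp)
    (unramInput p W hp) (Fermat.Agent.S59.H240.unipInput_of_semistable p hp W hΔ hW)
    (fun hgood => hflat p hp2 W hΔ hW hirr hgood hE cb 𝒪 φ hφ)
    (fun hbad => hord p hp2 W hΔ hW hirr hbad hE cb hdet)⟩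

end Fermat.Agent.S59.H127
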