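import Fermat.Agent.S59.H127.AsmO
import Fermat.Agent.S59.H396.OrdAbstract

/-!
# Row S59, layer E — bridge between the two Tate modules, and CR-ORD from torsion-level data

`H360.tateRepOf` (compatible sequences, `tateSub p E`) and `H127.tateGaloisRep` (coordinates
`Fin 2 → ℤ_[p]` w.r.t. a compatible system of bases) are equivalent representations:

* `CompatBasis.tateSubEquiv` : `(Fin h → ℤ_[p]) ≃ₗ[ℤ_[p]] H360.tateSub p A`, `a ↦ (k ↦ Φ a k)`;
* `torsCard_pts`, `torsFiniteLevel_pts` : the hypotheses of `H360.tateRepOf` for `E(ℚ̄)`;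
* `tateGaloisRep_isEquiv_tateRepOf`;
* `tate_isStrictOrdinaryAt_of_ordData` : `DetIsCyclotomic` + `H396.OrdDataAt p (Pts W) P` for all
  `P ∣ p` ⟹ `(tateGaloisRep (WQ W) cb).IsStrictOrdinaryAt p`;
* `ordFinalInput_of_ordData` : the open input `OrdFinalInput` of `AsmO.lean` from
  `OrdDataInput` (= `H396.OrdDataAt` at the primes of bad reduction of a semistable model).
-/

set_option autoImplicit false

open PadicInt WeierstrassCurve WeierstrassCurve.Affine
open scoped WeierstrassCurve.Affine

namespace Fermat.Agent.S59.H127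

section abstract

variable {A : Type*} [AddCommGroup A] {p h : ℕ} [hp : Fact p.Prime] (cb : CompatBasis A p h)

namespace CompatBasis

/-- the comparison map `ℤ_p^h → T_p A` -/
noncomputable def toTateSub : (Fin h → ℤ_[p]) →ₗ[ℤ_[p]] Fermat.Agent.S59.H360.tateSub p A where
  toFun a := ⟨fun k => cb.Φ a k, fun k => ⟨cb.Φ_torsion a k, cb.Φ_succ a k⟩⟩
  map_add' a b := Fermat.Agent.S59.H360.tateSub_ext fun k => cb.Φ_add a b k
  map_smul' c a := Fermat.Agent.S59.H360.tateSub_ext fun k => by
    rw [RingHom.id_apply, Fermat.Agent.S59.H360.tate_smul_apply]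
    exact cb.Φ_smul c a k

lemma toTateSub_apply (a : Fin h → ℤ_[p]) (k : ℕ) : (cb.toTateSub a).1 k = cb.Φ a k := rfl

lemma toTateSub_bijective : Function.Bijective cb.toTateSub := by
  refine ⟨fun a b hab => cb.Φ_injective fun k => ?_, fun f => ?_⟩
  · have := congrArg (fun g : Fermat.Agent.S59.H360.tateSub p A => g.1 k) hab
    exact this
  · obtain ⟨a, ha⟩ := cb.Φ_surjective f.1 (Fermat.Agent.S59.H360.tateSub_zero_apply f)
      (fun k => Fermat.Agent.S59.H360.tateSub_p_smul f k)
    exact ⟨a, Fermat.Agent.S59.H360.tateSub_ext ha⟩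

/-- **the two Tate modules are isomorphic** -/
noncomputable def tateSubEquiv : (Fin h → ℤ_[p]) ≃ₗ[ℤ_[p]] Fermat.Agent.S59.H360.tateSub p A :=
  LinearEquiv.ofBijective cb.toTateSub cb.toTateSub_bijective

lemma tateSubEquiv_apply (a : Fin h → ℤ_[p]) (k : ℕ) : (cb.tateSubEquiv a).1 k = cb.Φ a k := rfl

end CompatBasis

end abstract

section galois

variable (W' : WeierstrassCurve.Affine ℚ) [hE : (W'⁄(AlgebraicClosure ℚ)).IsElliptic]
variable (p : ℕ) [hp : Fact p.Prime]

omit hp in
/-- `#E[p^n] = p^(2n)` in the vocabulary of `H360` -/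
theorem torsCard_point : Fermat.Agent.S59.H360.TorsCard p (W'⁄(AlgebraicClosure ℚ)).Point := by
  intro n
  have h1 := card_torsion_eq (W'⁄(AlgebraicClosure ℚ)) (p ^ n)
  rw [← pow_mul, mul_comm] at h1
  rw [← h1]
  refine Nat.card_congr ⟨fun x => ⟨x.1, ?_⟩, fun x => ⟨x.1, ?_⟩, fun _ => rfl, fun _ => rfl⟩
  · exact mem_torsionBy_natCast_iff.mpr (Fermat.Agent.S59.H360.mem_tors.mp x.2)
  · exact Fermat.Agent.S59.H360.mem_tors.mpr (mem_torsionBy_natCast_iff.mp x.2)

/-- every `E[p^n]` is fixed by an open subgroup, in the vocabulary of `H360` -/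
theorem torsFiniteLevel_point :
    Fermat.Agent.S59.H360.TorsFiniteLevel p (W'⁄(AlgebraicClosure ℚ)).Point := fun n =>
  exists_finite_level W' (p ^ n) (Nat.one_le_pow _ _ hp.out.pos)

variable {p}
variable (cb : CompatBasis (W'⁄(AlgebraicClosure ℚ)).Point p 2)

/-- **the two Tate representations are equivalent** -/
theorem tateGaloisRep_isEquiv_tateRepOf
    (h : Fermat.Agent.S59.H360.TorsCard p (W'⁄(AlgebraicClosure ℚ)).Point)
    (hfl : Fermat.Agent.S59.H360.TorsFiniteLevel p (W'⁄(AlgebraicClosure ℚ)).Point) :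
    (tateGaloisRep W' cb).IsEquiv (Fermat.Agent.S59.H360.tateRepOf h hfl) :=
  ⟨⟨cb.tateSubEquiv, fun σ x => Fermat.Agent.S59.H360.tateSub_ext fun k =>
    Φ_tateGaloisRep W' cb σ x k⟩⟩

end galois

section ord

variable {p : ℕ} [hp : Fact p.Prime] (W : WeierstrassCurve ℤ)
  [hE : ((WQ W)⁄(AlgebraicClosure ℚ)).IsElliptic]
  (cb : CompatBasis (Pts W) p 2)

/-- **CR-ORD from torsion-level data**: if the determinant is cyclotomic and the torsion-level
ordinary datum `H396.OrdDataAt` exists at every place over `p`, the Tate module is strictly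
ordinary at `p`. -/
theorem tate_isStrictOrdinaryAt_of_ordData
    (hdet : (tateGaloisRep (WQ W) cb).DetIsCyclotomic p)
    (hdata : ∀ P : ValuationSubring (AlgebraicClosure ℚ), P.LiesOverPrime p →
      Fermat.Agent.S59.H396.OrdDataAt p (Pts W) P) :
    (tateGaloisRep (WQ W) cb).IsStrictOrdinaryAt p := by
  have h := torsCard_point (WQ W) p
  have hfl := torsFiniteLevel_point (WQ W) p
  have he := tateGaloisRep_isEquiv_tateRepOf (WQ W) cb h hfl
  have hdet' := Fermat.Agent.S56.H966.detIsCyclotomic_of_isEquiv he hdet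
  obtain ⟨e⟩ := he
  exact Fermat.Agent.S56.H966.isStrictOrdinaryAt_of_isEquiv ⟨e.symm⟩
    (Fermat.Agent.S59.H396.isStrictOrdinaryAt_of_data h hfl hdet' hdata)

end ord

/-- **OPEN INPUT (CR-ORD), torsion-level form**: for a semistable model with bad reduction at the
odd prime `p`, the ordinary datum of `H396` exists at every place over `p`. -/
def OrdDataInput : Prop :=
  ∀ (p : ℕ) [Fact p.Prime] (_hp2 : p ≠ 2) (W : WeierstrassCurve ℤ) (_hΔ : W.Δ ≠ 0)
    (_hW : W.IsSemistableModel), ¬ W.IsGoodPrimeFor p →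
    ∀ P : ValuationSubring (AlgebraicClosure ℚ), P.LiesOverPrime p →
      Fermat.Agent.S59.H396.OrdDataAt p (Pts W) P

theorem ordFinalInput_of_ordData (h : OrdDataInput) : OrdFinalInput := by
  intro p _ hp2 W hΔ hW _ hbad hE cb hdet
  exact tate_isStrictOrdinaryAt_of_ordData W cb hdet (h p hp2 W hΔ hW hbad)

/-- **Layer E of S59** from the flat input and the torsion-level ordinary datum. -/
theorem curveRepStatement_of_ordData (hflat : FlatFinalInput) (hord : OrdDataInput) :
    Fermat.Agent.S59.Arch.CurveRepStatement :=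
  curveRepStatement_of hflat (ordFinalInput_of_ordData hord)

end Fermat.Agent.S59.H127
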