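import Mathlib
import Fermat.Agent.S59.H127.Bridge

/-!
# E-side foundation, part 6': the level bridge for a general modulus `m = p^n`

Same as `Bridge.lean`, but for `A[m] = torsionBy ℤ A m` over `ZMod m` where `m = p ^ n` is only
PROPOSITIONALLY a power of `p` (e.g. `m = p`, `n = 1`, as in the Prelude's residual
representation), and with an arbitrary ring homomorphism `π : ℤ_[p] →+* ZMod m`.

* `cb.levelBasisOf hm` : the basis `(B n i)_i` of `A[m]` over `ZMod m`;
* `toMatrix_levelOf`, `charpoly_levelOf`, `det_levelOf`, `trace_levelOf`.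
-/

open PadicInt Polynomial

namespace Fermat.Agent.S59.H127

variable {A : Type*} [AddCommGroup A] {p h : ℕ} [hp : Fact p.Prime]

/-- any ring homomorphism `ℤ_[p] → ZMod (p^n)` is computed by integer approximations -/
lemma ringHom_eq_intCast_of_toZModPow {m n : ℕ} (hm : m = p ^ n) (π : ℤ_[p] →+* ZMod m)
    (z : ℤ_[p]) (c : ℤ) (hc : ((c : ℤ) : ZMod (p ^ n)) = toZModPow n z) :
    π z = ((c : ℤ) : ZMod m) := by
  rw [intCast_eq_toZModPow_iff] at hc
  obtain ⟨w, hw⟩ := Ideal.mem_span_singleton.mp hc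
  have hz : z = (c : ℤ_[p]) + (p : ℤ_[p]) ^ n * w := by rw [← hw]; ring
  have hpm : ((p : ZMod m)) ^ n = 0 := by
    rw [← Nat.cast_pow, ← hm]
    exact ZMod.natCast_self m
  rw [hz, map_add, map_mul, map_pow, map_natCast, map_intCast, hpm, zero_mul, add_zero]

namespace CompatBasis

variable (cb : CompatBasis A p h)

section level

variable {m n : ℕ} (hm : m = p ^ n)

include hm in
omit hp in
lemma B_memOf (i : Fin h) : cb.B n i ∈ Submodule.torsionBy ℤ A ((m : ℕ) : ℤ) := by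
  rw [Submodule.mem_torsionBy_iff, natCast_zsmul, hm]
  exact cb.pow_smul_self n i

/-- the basis vectors, as elements of `A[m]` -/
def levelVecOf (i : Fin h) : Submodule.torsionBy ℤ A ((m : ℕ) : ℤ) :=
  ⟨cb.B n i, cb.B_memOf hm i⟩

omit hp in
lemma coe_sum_zsmul_levelVecOf (c : Fin h → ℤ) :
    ((∑ i, c i • cb.levelVecOf hm i : Submodule.torsionBy ℤ A ((m : ℕ) : ℤ)) : A)
      = ∑ i, c i • cb.B n i := by
  rw [Submodule.coe_sum]
  refine Finset.sum_congr rfl fun j _ => ?_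
  rw [Submodule.coe_smul_of_tower]
  rfl

variable [Module (ZMod m) (Submodule.torsionBy ℤ A ((m : ℕ) : ℤ))]

omit hp in
lemma sum_smul_levelVecOf_eq (g : Fin h → ZMod m) (c : Fin h → ℤ)
    (hc : ∀ i, ((c i : ℤ) : ZMod m) = g i) :
    ∑ i, g i • cb.levelVecOf hm i = ∑ i, c i • cb.levelVecOf hm i := by
  refine Finset.sum_congr rfl fun j _ => ?_
  rw [← hc j, Int.cast_smul_eq_zsmul]

omit hp in
lemma linearIndependent_levelVecOf :
    LinearIndependent (ZMod m) (cb.levelVecOf hm) := by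
  rw [Fintype.linearIndependent_iff]
  intro g hg i
  have hc : ∀ i, (((g i).cast : ℤ) : ZMod m) = g i := fun i => ZMod.intCast_zmod_cast _
  rw [cb.sum_smul_levelVecOf_eq hm g (fun i => ((g i).cast : ℤ)) hc] at hg
  have h1 := congrArg (Subtype.val) hg
  rw [cb.coe_sum_zsmul_levelVecOf, Submodule.coe_zero] at h1
  have h2 := cb.indep n _ h1 i
  have hmz : ((m : ℕ) : ℤ) = (p : ℤ) ^ n := by rw [hm, Nat.cast_pow]
  rw [← hc i, ZMod.intCast_zmod_eq_zero_iff_dvd, hmz]
  exact h2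

omit hp in
lemma span_levelVecOf :
    ⊤ ≤ Submodule.span (ZMod m) (Set.range (cb.levelVecOf hm)) := by
  intro x _
  have hmn : ∀ y : A, p ^ n • y = m • y := fun y => by rw [hm]
  have hx : p ^ n • (x : A) = 0 := by
    have := x.2
    rw [Submodule.mem_torsionBy_iff, natCast_zsmul] at this
    rw [hmn]
    exact this
  obtain ⟨c, hc⟩ := cb.span n x hx
  have hx' : x = ∑ i, ((c i : ℤ) : ZMod m) • cb.levelVecOf hm i := by
    rw [cb.sum_smul_levelVecOf_eq hm _ c (fun _ => rfl)]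
    apply Subtype.ext
    rw [cb.coe_sum_zsmul_levelVecOf, hc]
  rw [hx']
  exact Submodule.sum_mem _ fun i _ =>
    Submodule.smul_mem _ _ (Submodule.subset_span (Set.mem_range_self i))

/-- **the basis `(B n i)_i` of `A[m]` over `ZMod m`, `m = p^n`** -/
noncomputable def levelBasisOf :
    Module.Basis (Fin h) (ZMod m) (Submodule.torsionBy ℤ A ((m : ℕ) : ℤ)) :=
  Module.Basis.mk (cb.linearIndependent_levelVecOf hm) (cb.span_levelVecOf hm)

omit hp in
@[simp] lemma levelBasisOf_apply (i : Fin h) : cb.levelBasisOf hm i = cb.levelVecOf hm i := by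
  rw [levelBasisOf, Module.Basis.mk_apply]

omit hp in
lemma coe_levelBasisOf (i : Fin h) :
    ((cb.levelBasisOf hm i : Submodule.torsionBy ℤ A ((m : ℕ) : ℤ)) : A) = cb.B n i := by
  rw [levelBasisOf_apply]
  rfl

omit hp in
/-- coordinates in the level basis -/
lemma levelBasisOf_repr_eq (x : Submodule.torsionBy ℤ A ((m : ℕ) : ℤ)) (c : Fin h → ℤ)
    (hc : (x : A) = ∑ i, c i • cb.B n i) (i : Fin h) :
    (cb.levelBasisOf hm).repr x i = ((c i : ℤ) : ZMod m) := by
  have hx : x = ∑ i, ((c i : ℤ) : ZMod m) • cb.levelBasisOf hm i := by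
    simp only [levelBasisOf_apply]
    rw [cb.sum_smul_levelVecOf_eq hm _ c (fun _ => rfl)]
    apply Subtype.ext
    rw [cb.coe_sum_zsmul_levelVecOf, hc]
  conv_lhs => rw [hx]
  rw [map_sum, Finset.sum_apply']
  simp only [map_smul, Module.Basis.repr_self, Finsupp.smul_apply, smul_eq_mul]
  rw [Finset.sum_eq_single i]
  · rw [Finsupp.single_eq_same, mul_one]
  · intro j _ hji
    rw [Finsupp.single_eq_of_ne hji.symm, mul_zero]
  · intro hi
    exact absurd (Finset.mem_univ i) hi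

/-- the image of a level basis vector, in coordinates -/
theorem apply_levelBasisOf (π : ℤ_[p] →+* ZMod m) (f : AddMonoid.End A)
    (g : Module.End (ZMod m) (Submodule.torsionBy ℤ A ((m : ℕ) : ℤ)))
    (hg : ∀ x, ((g x : Submodule.torsionBy ℤ A ((m : ℕ) : ℤ)) : A) = f (x : A)) (j : Fin h) :
    g (cb.levelBasisOf hm j)
      = ∑ i, π (cb.tateEnd f (Pi.single j (1 : ℤ_[p])) i) • cb.levelBasisOf hm i := by
  have h1 : ((g (cb.levelBasisOf hm j) : Submodule.torsionBy ℤ A ((m : ℕ) : ℤ)) : A)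
      = ∑ i, (((cb.tateEnd f (Pi.single j (1 : ℤ_[p])) i).appr n : ℕ) : ℤ) • cb.B n i := by
    rw [hg, cb.coe_levelBasisOf]
    exact cb.apply_B_eq n f j _ fun i => appr_cast_eq_toZModPow n _
  have h2 : ∀ i, π (cb.tateEnd f (Pi.single j (1 : ℤ_[p])) i)
      = (((((cb.tateEnd f (Pi.single j (1 : ℤ_[p])) i).appr n : ℕ) : ℤ)) : ZMod m) := fun i =>
    ringHom_eq_intCast_of_toZModPow hm π _ _ (appr_cast_eq_toZModPow n _)
  simp only [levelBasisOf_apply, h2]
  rw [cb.sum_smul_levelVecOf_eq hm _ _ (fun _ => rfl)]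
  apply Subtype.ext
  rw [cb.coe_sum_zsmul_levelVecOf, ← h1, levelBasisOf_apply]

/-- **the matrix of `f` on `A[m]` is the image under `π` of the matrix of `tateEnd f`** -/
theorem toMatrix_levelOf (π : ℤ_[p] →+* ZMod m) (f : AddMonoid.End A)
    (g : Module.End (ZMod m) (Submodule.torsionBy ℤ A ((m : ℕ) : ℤ)))
    (hg : ∀ x, ((g x : Submodule.torsionBy ℤ A ((m : ℕ) : ℤ)) : A) = f (x : A)) :
    LinearMap.toMatrix (cb.levelBasisOf hm) (cb.levelBasisOf hm) g
      = (LinearMap.toMatrix' (cb.tateEnd f)).map π := by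
  ext i j
  rw [LinearMap.toMatrix_apply, Matrix.map_apply, LinearMap.toMatrix'_apply]
  have h1 : ((g (cb.levelBasisOf hm j) : Submodule.torsionBy ℤ A ((m : ℕ) : ℤ)) : A)
      = ∑ i, (((cb.tateEnd f (Pi.single j (1 : ℤ_[p])) i).appr n : ℕ) : ℤ) • cb.B n i := by
    rw [hg, cb.coe_levelBasisOf]
    exact cb.apply_B_eq n f j _ fun i => appr_cast_eq_toZModPow n _
  rw [cb.levelBasisOf_repr_eq hm _ _ h1 i]
  exact (ringHom_eq_intCast_of_toZModPow hm π _ _ (appr_cast_eq_toZModPow n _)).symm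

include hm in
/-- determinant at level `m` -/
theorem det_levelOf (π : ℤ_[p] →+* ZMod m) (f : AddMonoid.End A)
    (g : Module.End (ZMod m) (Submodule.torsionBy ℤ A ((m : ℕ) : ℤ)))
    (hg : ∀ x, ((g x : Submodule.torsionBy ℤ A ((m : ℕ) : ℤ)) : A) = f (x : A)) :
    LinearMap.det g = π (LinearMap.det (cb.tateEnd f)) := by
  rw [← LinearMap.det_toMatrix (cb.levelBasisOf hm), cb.toMatrix_levelOf hm π f g hg,
    ← LinearMap.det_toMatrix (Pi.basisFun ℤ_[p] (Fin h)) (cb.tateEnd f), RingHom.map_det]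
  rfl

include hm in
/-- trace at level `m` -/
theorem trace_levelOf (π : ℤ_[p] →+* ZMod m) (f : AddMonoid.End A)
    (g : Module.End (ZMod m) (Submodule.torsionBy ℤ A ((m : ℕ) : ℤ)))
    (hg : ∀ x, ((g x : Submodule.torsionBy ℤ A ((m : ℕ) : ℤ)) : A) = f (x : A)) :
    LinearMap.trace (ZMod m) _ g = π (LinearMap.trace ℤ_[p] _ (cb.tateEnd f)) := by
  rw [LinearMap.trace_eq_matrix_trace (ZMod m) (cb.levelBasisOf hm),
    cb.toMatrix_levelOf hm π f g hg,
    LinearMap.trace_eq_matrix_trace ℤ_[p] (Pi.basisFun ℤ_[p] (Fin h)), Matrix.trace,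
    Matrix.trace, map_sum]
  rfl

include hm in
/-- characteristic polynomial at level `m` -/
theorem charpoly_levelOf [Module.Free (ZMod m) (Submodule.torsionBy ℤ A ((m : ℕ) : ℤ))]
    [Module.Finite (ZMod m) (Submodule.torsionBy ℤ A ((m : ℕ) : ℤ))]
    (π : ℤ_[p] →+* ZMod m) (f : AddMonoid.End A)
    (g : Module.End (ZMod m) (Submodule.torsionBy ℤ A ((m : ℕ) : ℤ)))
    (hg : ∀ x, ((g x : Submodule.torsionBy ℤ A ((m : ℕ) : ℤ)) : A) = f (x : A)) :
    LinearMap.charpoly g = (LinearMap.charpoly (cb.tateEnd f)).map π := by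
  rw [← LinearMap.charpoly_toMatrix g (cb.levelBasisOf hm), cb.toMatrix_levelOf hm π f g hg,
    ← LinearMap.charpoly_toMatrix (cb.tateEnd f) (Pi.basisFun ℤ_[p] (Fin h)),
    Matrix.charpoly_map]
  rfl

end level

end CompatBasis

end Fermat.Agent.S59.H127
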