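import Fermat.Agent.S59.H127.AsmO
import Fermat.Agent.S59.H396.OrdInput

/-!
# Row S59, layer E — `CurveRepStatement` up to CR-FLAT only

CR-ORD is closed by helper396 (`H396.isStrictOrdinaryAt_tateGaloisRep`), so

* `ordFinalInput : OrdFinalInput`;
* `curveRepStatement_of_flat : FlatFinalInput → Arch.CurveRepStatement`.
-/

set_option autoImplicit false

open WeierstrassCurve WeierstrassCurve.Affine
open scoped WeierstrassCurve.Affine

namespace Fermat.Agent.S59.H127

/-- **CR-ORD, final form** (helper396's theorem in the shape consumed by `curveRepStatement_of`) -/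
theorem ordFinalInput : OrdFinalInput := by
  intro p hp hp2 W hΔ hW _ hbad hE cb hdet
  exact Fermat.Agent.S59.H396.isStrictOrdinaryAt_tateGaloisRep hp2 hΔ (not_not.mp hbad)
    (hW p hp.out (not_not.mp hbad)) cb hdet

/-- **Layer E of S59, up to CR-FLAT.** -/
theorem curveRepStatement_of_flat (hflat : FlatFinalInput) :
    Fermat.Agent.S59.Arch.CurveRepStatement :=
  curveRepStatement_of hflat ordFinalInput

end Fermat.Agent.S59.H127
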